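/-
Cluster L (S41, level raising), work package PD = Poincare duality for parabolic homomorphisms.
Sub-architect: helper17.  Plan: board note "PD plan v1 (helper17)" + `NOTES/blueprint-L-PD.md`.

Definitions only (sorry-free).  Everything is over `ℤ`; `G = SL(2, ℤ)`, `X` a `G`-set
(in the end `X = G ⧸ Γ`, `Γ ≤ G` of finite index, `-1 ∈ Γ`).  RIGHT conventions throughout:
functions on `X` are composed with the action, `(f ∘ g) x = f (g • x)`, and crossed
homomorphisms satisfy `d (g * h) x = d g (h • x) + d h x`  (no inverses anywhere).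

* `Umat = T * S`     : of order `3` modulo `±1`;  note `T = Umat * S⁻¹`;
* `IsEta φ ψ η`      : `η (a * b) = η a + η b + φ a * ψ b` (a primitive of the cup product `φ ∪ ψ`);
* `cuspElt Γ q`, `cuspSum Γ f` : `∑_{q : orbits of ⟨T⟩ on G ⧸ Γ} f (g_q⁻¹ T^{k_q} g_q)`
                       (exactly the elements of Mathlib's transfer formula);
* `IsPosPar γ`       : `γ ≠ 1`, trace `2`, `0 ≤ γ 0 1`, `γ 1 0 ≤ 0` (the conjugates of `T ^ k`, `k > 0`);
* `CrossedHom X A`   : maps `d : G → X → A` with `d (g * h) x = d g (h • x) + d h x`;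
* `CrossedHom.ev d`  : the homomorphism `γ ↦ d γ x₀` of `Γ` (`X = G ⧸ Γ`, `x₀` the class of `1`);
* `Kc X`             : the `m : X → ℤ` with `m + m ∘ S = 0` and `m + m ∘ U + m ∘ U² = 0`;
* `Eis X`            : the `w ∘ S - w`, `w` invariant under `T`;
* `inner f f'`       : `∑ x, f x * f' x`.
-/
import Mathlib
import Fermat.Prelude.Def_ModularCurve_PeriodMap

set_option autoImplicit false

noncomputable section

namespace Fermat.Agent.LPD

open scoped MatrixGroups
open ModularCurve.Period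

/-- `U = T * S`, of order `3` modulo `±1`. -/
def Umat : SL(2, ℤ) := ModularGroup.T * ModularGroup.S

/-- The lattice of parabolic homomorphisms `Γ → ℤ`. -/
abbrev HomParZ (Γ : Subgroup SL(2, ℤ)) : Type := parabolicHoms ℤ Γ ℤ

/-- `η` is a primitive of the cup product of `φ` and `ψ`. -/
def IsEta {Γ : Subgroup SL(2, ℤ)} {R : Type*} [CommRing R]
    (φ ψ : Additive Γ →+ R) (η : Γ → R) : Prop :=
  ∀ a b : Γ, η (a * b) = η a + η b + φ (Additive.ofMul a) * ψ (Additive.ofMul b)

/-- The element `g_q⁻¹ T^{k_q} g_q ∈ Γ` attached to a coset `q` (`k_q` = period of `T` on `q`,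
`g_q = Quotient.out q`). -/
def cuspElt (Γ : Subgroup SL(2, ℤ)) (q : SL(2, ℤ) ⧸ Γ) : Γ :=
  ⟨(Quotient.out q)⁻¹ * ModularGroup.T ^ Function.minimalPeriod (fun x => ModularGroup.T • x) q *
      Quotient.out q, QuotientGroup.out_conj_pow_minimalPeriod_mem Γ ModularGroup.T q⟩

/-- The cusp sum of a function on `Γ`: sum of the values at the positive generators of the
stabilisers of the cusps (one for each orbit of `T` on `G ⧸ Γ`). -/
def cuspSum (Γ : Subgroup SL(2, ℤ)) {R : Type*} [AddCommMonoid R] (f : Γ → R) : R :=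
  ∑ᶠ q : Quotient (MulAction.orbitRel (Subgroup.zpowers ModularGroup.T) (SL(2, ℤ) ⧸ Γ)),
    f (cuspElt Γ q.out)

/-- Positive parabolic elements: the conjugates `g⁻¹ T ^ k g`, `k > 0`, of `SL(2, ℤ)`. -/
def IsPosPar (γ : SL(2, ℤ)) : Prop :=
  γ ≠ 1 ∧ (γ : Matrix (Fin 2) (Fin 2) ℤ).trace = 2 ∧ 0 ≤ γ 0 1 ∧ γ 1 0 ≤ 0

/-- Crossed homomorphisms `G → (X → A)` (right convention). -/
structure CrossedHom (X : Type*) [MulAction SL(2, ℤ) X] (A : Type*) [AddCommGroup A] where
  /-- the underlying function -/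
  toFun : SL(2, ℤ) → X → A
  map_mul' : ∀ (g h : SL(2, ℤ)) (x : X), toFun (g * h) x = toFun g (h • x) + toFun h x

namespace CrossedHom

section Basic

variable {X : Type*} [MulAction SL(2, ℤ) X] {A : Type*} [AddCommGroup A]

instance : CoeFun (CrossedHom X A) (fun _ => SL(2, ℤ) → X → A) := ⟨toFun⟩

theorem map_mul (d : CrossedHom X A) (g h : SL(2, ℤ)) (x : X) :
    d (g * h) x = d g (h • x) + d h x := d.map_mul' g h x

@[ext]
theorem ext {d d' : CrossedHom X A} (h : ∀ g x, d g x = d' g x) : d = d' := by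
  cases d; cases d'; congr; funext g x; exact h g x

theorem map_one (d : CrossedHom X A) (x : X) : d 1 x = 0 := by
  have h := d.map_mul 1 1 x
  simp only [mul_one, one_smul] at h
  simpa using h

theorem map_inv (d : CrossedHom X A) (g : SL(2, ℤ)) (x : X) : d g⁻¹ x = - d g (g⁻¹ • x) := by
  have h := d.map_mul g g⁻¹ x
  rw [mul_inv_cancel, d.map_one] at h
  exact eq_neg_of_add_eq_zero_right h.symm

end Basic

variable {Γ : Subgroup SL(2, ℤ)} {A : Type*} [AddCommGroup A]

/-- The homomorphism of `Γ` induced by a crossed homomorphism: `γ ↦ d γ x₀`. -/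
def ev (d : CrossedHom (SL(2, ℤ) ⧸ Γ) A) : Additive Γ →+ A where
  toFun γ := d ((Additive.toMul γ : Γ) : SL(2, ℤ)) ((1 : SL(2, ℤ)) : SL(2, ℤ) ⧸ Γ)
  map_zero' := d.map_one _
  map_add' a b := by
    show d (((Additive.toMul a : Γ) * (Additive.toMul b : Γ) : Γ) : SL(2, ℤ)) _ = _
    rw [Subgroup.coe_mul, d.map_mul]
    congr 2
    rw [MulAction.Quotient.smul_mk, QuotientGroup.eq]
    simp

@[simp]
theorem ev_apply (d : CrossedHom (SL(2, ℤ) ⧸ Γ) A) (γ : Γ) :
    d.ev (Additive.ofMul γ) = d (γ : SL(2, ℤ)) ((1 : SL(2, ℤ)) : SL(2, ℤ) ⧸ Γ) := rfl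

end CrossedHom

/-- The standard pairing on functions on a finite type. -/
def inner {X : Type*} [Fintype X] {R : Type*} [CommRing R] (f f' : X → R) : R :=
  ∑ x, f x * f' x

section KcEis

variable (X : Type*) [MulAction SL(2, ℤ) X]

/-- The normalised parabolic cocycles: `m + m ∘ S = 0` and `m + m ∘ U + m ∘ U² = 0`. -/
def Kc : AddSubgroup (X → ℤ) where
  carrier := {m | (∀ x, m x + m (ModularGroup.S • x) = 0) ∧
    ∀ x, m x + m (Umat • x) + m (Umat • Umat • x) = 0}
  zero_mem' := ⟨fun _ => by simp, fun _ => by simp⟩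
  add_mem' := by
    rintro a b ⟨ha1, ha2⟩ ⟨hb1, hb2⟩
    refine ⟨fun x => ?_, fun x => ?_⟩
    · have := ha1 x; have := hb1 x; simp only [Pi.add_apply]; linarith
    · have := ha2 x; have := hb2 x; simp only [Pi.add_apply]; linarith
  neg_mem' := by
    rintro a ⟨ha1, ha2⟩
    refine ⟨fun x => ?_, fun x => ?_⟩
    · have := ha1 x; simp only [Pi.neg_apply]; linarith
    · have := ha2 x; simp only [Pi.neg_apply]; linarith

/-- The Eisenstein part: `w ∘ S - w` for `T`-invariant `w`. -/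
def Eis : AddSubgroup (X → ℤ) where
  carrier := {m | ∃ w : X → ℤ, (∀ x, w (ModularGroup.T • x) = w x) ∧
    ∀ x, m x = w (ModularGroup.S • x) - w x}
  zero_mem' := ⟨0, fun _ => rfl, fun _ => by simp⟩
  add_mem' := by
    rintro a b ⟨w, hw, ha⟩ ⟨w', hw', hb⟩
    refine ⟨w + w', fun x => by simp [hw x, hw' x], fun x => ?_⟩
    simp only [Pi.add_apply, ha x, hb x]; ring
  neg_mem' := by
    rintro a ⟨w, hw, ha⟩
    refine ⟨-w, fun x => by simp [hw x], fun x => ?_⟩
    simp only [Pi.neg_apply, ha x]; ring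

variable {X}

theorem mem_Kc {m : X → ℤ} : m ∈ Kc X ↔ (∀ x, m x + m (ModularGroup.S • x) = 0) ∧
    ∀ x, m x + m (Umat • x) + m (Umat • Umat • x) = 0 := Iff.rfl

theorem mem_Eis {m : X → ℤ} : m ∈ Eis X ↔ ∃ w : X → ℤ, (∀ x, w (ModularGroup.T • x) = w x) ∧
    ∀ x, m x = w (ModularGroup.S • x) - w x := Iff.rfl

end KcEis

end Fermat.Agent.LPD
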