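/-
Cluster L / PD (helper17): the intrinsic cup product pairing on homomorphisms `Γ → ℤ`:
`cup Γ φ ψ = cuspSum Γ η` for any primitive `η` of `φ ∪ ψ` (junk value `0` if there is none).
Independence of `η`: two primitives differ by a homomorphism `χ`, and
`cuspSum Γ χ = (transfer χ) T = 0` since `Hom(SL(2, ℤ), ℤ) = 0`.
-/
import Fermat.Agent.L.PD.Defs
import Fermat.Agent.S16.LB.Residue.SL2

set_option autoImplicit false
set_option linter.unusedSectionVars false
set_option linter.style.haveILetI false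

noncomputable section

namespace Fermat.Agent.LPD

open scoped MatrixGroups
open ModularGroup MulAction

variable (Γ : Subgroup SL(2, ℤ))

open Classical in
/-- The cup product pairing. -/
def cup (φ ψ : Additive Γ →+ ℤ) : ℤ :=
  if h : ∃ η : Γ → ℤ, IsEta φ ψ η then cuspSum Γ h.choose else 0

variable [Γ.FiniteIndex]

theorem cuspSum_eq_sum
    [Fintype (Quotient (orbitRel (Subgroup.zpowers (T : SL(2, ℤ))) (SL(2, ℤ) ⧸ Γ)))]
    {R : Type*} [AddCommMonoid R] (f : Γ → R) :
    cuspSum Γ f = ∑ q : Quotient (orbitRel (Subgroup.zpowers (T : SL(2, ℤ))) (SL(2, ℤ) ⧸ Γ)),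
      f (cuspElt Γ q.out) := by
  rw [cuspSum, finsum_eq_sum_of_fintype]

theorem cuspSum_add {R : Type*} [AddCommMonoid R] (f g : Γ → R) :
    cuspSum Γ (f + g) = cuspSum Γ f + cuspSum Γ g := by
  classical
  haveI : Fintype (Quotient (orbitRel (Subgroup.zpowers (T : SL(2, ℤ))) (SL(2, ℤ) ⧸ Γ))) :=
    Fintype.ofFinite _
  simp only [cuspSum_eq_sum, Pi.add_apply, Finset.sum_add_distrib]

theorem cuspSum_neg (f : Γ → ℤ) : cuspSum Γ (-f) = - cuspSum Γ f := by
  classical
  haveI : Fintype (Quotient (orbitRel (Subgroup.zpowers (T : SL(2, ℤ))) (SL(2, ℤ) ⧸ Γ))) :=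
    Fintype.ofFinite _
  simp only [cuspSum_eq_sum, Pi.neg_apply, Finset.sum_neg_distrib]

theorem cuspSum_congr {R : Type*} [AddCommMonoid R] {f g : Γ → R}
    (h : ∀ q : SL(2, ℤ) ⧸ Γ, f (cuspElt Γ q) = g (cuspElt Γ q)) : cuspSum Γ f = cuspSum Γ g := by
  unfold cuspSum
  exact finsum_congr fun q => h _

/-- The cusp sum of a homomorphism vanishes. -/
theorem cuspSum_hom (χ : Additive Γ →+ ℤ) : cuspSum Γ (fun γ => χ (Additive.ofMul γ)) = 0 := by
  classical
  haveI : Fintype (Quotient (orbitRel (Subgroup.zpowers (T : SL(2, ℤ))) (SL(2, ℤ) ⧸ Γ))) :=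
    Fintype.ofFinite _
  set ϕ : Γ →* Multiplicative ℤ := AddMonoidHom.toMultiplicativeRight χ with hϕ
  have h1 := MonoidHom.transfer_eq_prod_quotient_orbitRel_zpowers_quot ϕ (T : SL(2, ℤ))
  have h2 := Fermat.Agent.S16.LB.Residue.hom_T_pow_twelve (MonoidHom.transfer ϕ)
  have h3 : Multiplicative.toAdd (MonoidHom.transfer ϕ (T : SL(2, ℤ))) = 0 := by
    have := congrArg Multiplicative.toAdd h2
    rw [toAdd_pow, toAdd_one] at this
    simpa using this
  rw [h1, toAdd_prod] at h3
  rw [cuspSum_eq_sum]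
  exact h3

/-- The cup product is computed by any primitive. -/
theorem cup_eq_cuspSum {φ ψ : Additive Γ →+ ℤ} {η : Γ → ℤ} (h : IsEta φ ψ η) :
    cup Γ φ ψ = cuspSum Γ η := by
  classical
  have hex : ∃ η : Γ → ℤ, IsEta φ ψ η := ⟨η, h⟩
  rw [cup, dif_pos hex]
  set η₀ := hex.choose with hη₀
  have h₀ : IsEta φ ψ η₀ := hex.choose_spec
  let χ : Additive Γ →+ ℤ :=
    { toFun := fun γ => η₀ (Additive.toMul γ) - η (Additive.toMul γ)
      map_zero' := by
        have e1 := h₀ 1 1
        have e2 := h 1 1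
        simp only [mul_one, ofMul_one, map_zero, mul_zero, add_zero] at e1 e2
        show η₀ 1 - η 1 = 0
        linarith
      map_add' := fun a b => by
        show η₀ (Additive.toMul a * Additive.toMul b) - η (Additive.toMul a * Additive.toMul b) = _
        rw [h₀, h]
        ring }
  have e : η₀ = η + fun γ => χ (Additive.ofMul γ) := by
    funext γ
    show η₀ γ = η γ + (η₀ γ - η γ)
    ring
  rw [e, cuspSum_add, cuspSum_hom, add_zero]

theorem cup_eq_zero_of_not {φ ψ : Additive Γ →+ ℤ} (h : ¬ ∃ η : Γ → ℤ, IsEta φ ψ η) :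
    cup Γ φ ψ = 0 := by
  classical
  rw [cup, dif_neg h]

end Fermat.Agent.LPD
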