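/-
Cluster L / PD (helper17): the Heisenberg group `Perm X ⋉ (W × W × W)`, `W = X → ℤ`, and the
Heisenberg lift of a pair of normalised crossed homomorphisms, from the presentation of `SL(2, ℤ)`.
-/
import Fermat.Agent.L.PD.Defs

set_option autoImplicit false

noncomputable section

namespace Fermat.Agent.LPD

open scoped MatrixGroups

/-- The presentation of `SL(2, ℤ)` (work package M1), as a hypothesis. -/
def Presentation : Prop :=
  ∀ (E : Type) [Group E] (s u : E), s ^ 2 = 1 → u ^ 3 = 1 →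
    ∃ Φ : SL(2, ℤ) →* E, Φ ModularGroup.S = s ∧ Φ (ModularGroup.S * ModularGroup.T) = u

/-- The Heisenberg-type group: `(σ; a, b, c)` with
`(σ; a, b, c) (τ; a', b', c') = (σ τ; a∘τ + a', b∘τ + b', c∘τ + c' + (a∘τ) b')`. -/
@[ext]
structure Heis (X : Type) where
  /-- the permutation -/
  perm : Equiv.Perm X
  /-- first crossed homomorphism -/
  a : X → ℤ
  /-- second crossed homomorphism -/
  b : X → ℤ
  /-- the Heisenberg component -/
  c : X → ℤ

namespace Heis

variable {X : Type}

instance : Mul (Heis X) :=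
  ⟨fun p q => ⟨p.perm * q.perm, fun x => p.a (q.perm x) + q.a x, fun x => p.b (q.perm x) + q.b x,
    fun x => p.c (q.perm x) + q.c x + p.a (q.perm x) * q.b x⟩⟩

instance : One (Heis X) := ⟨⟨1, 0, 0, 0⟩⟩

instance : Inv (Heis X) :=
  ⟨fun p => ⟨p.perm⁻¹, fun x => - p.a (p.perm⁻¹ x), fun x => - p.b (p.perm⁻¹ x),
    fun x => - p.c (p.perm⁻¹ x) + p.a (p.perm⁻¹ x) * p.b (p.perm⁻¹ x)⟩⟩

@[simp] theorem mul_perm (p q : Heis X) : (p * q).perm = p.perm * q.perm := rfl
@[simp] theorem mul_a (p q : Heis X) (x : X) : (p * q).a x = p.a (q.perm x) + q.a x := rfl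
@[simp] theorem mul_b (p q : Heis X) (x : X) : (p * q).b x = p.b (q.perm x) + q.b x := rfl
@[simp] theorem mul_c (p q : Heis X) (x : X) :
    (p * q).c x = p.c (q.perm x) + q.c x + p.a (q.perm x) * q.b x := rfl
@[simp] theorem one_perm : (1 : Heis X).perm = 1 := rfl
@[simp] theorem one_a (x : X) : (1 : Heis X).a x = 0 := rfl
@[simp] theorem one_b (x : X) : (1 : Heis X).b x = 0 := rfl
@[simp] theorem one_c (x : X) : (1 : Heis X).c x = 0 := rfl
@[simp] theorem inv_perm (p : Heis X) : (p⁻¹).perm = p.perm⁻¹ := rfl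
@[simp] theorem inv_a (p : Heis X) (x : X) : (p⁻¹).a x = - p.a (p.perm⁻¹ x) := rfl
@[simp] theorem inv_b (p : Heis X) (x : X) : (p⁻¹).b x = - p.b (p.perm⁻¹ x) := rfl
@[simp] theorem inv_c (p : Heis X) (x : X) :
    (p⁻¹).c x = - p.c (p.perm⁻¹ x) + p.a (p.perm⁻¹ x) * p.b (p.perm⁻¹ x) := rfl

instance : Group (Heis X) :=
  Group.ofLeftAxioms
    (fun p q r => by
      apply Heis.ext
      · simp [mul_assoc]
      · funext x; simp [add_assoc]
      · funext x; simp [add_assoc]
      · funext x; simp; ring)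
    (fun p => by
      apply Heis.ext
      · simp
      · funext x; simp
      · funext x; simp
      · funext x; simp)
    (fun p => by
      apply Heis.ext
      · simp
      · funext x; simp
      · funext x; simp
      · funext x; simp)

/-- The projection to permutations. -/
def permHom : Heis X →* Equiv.Perm X where
  toFun p := p.perm
  map_one' := rfl
  map_mul' _ _ := rfl

@[simp] theorem permHom_apply (p : Heis X) : permHom p = p.perm := rfl

end Heis

section Solve

variable {X : Type} [Finite X]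

/-- Solving `h ∘ σ + h = f` for an involution `σ`. -/
theorem exists_sol_two (σ : Equiv.Perm X) (hσ : ∀ x, σ (σ x) = x) (f : X → ℤ)
    (hf : ∀ x, f (σ x) = f x) (hf0 : ∀ x, σ x = x → f x = 0) :
    ∃ h : X → ℤ, ∀ x, h (σ x) + h x = f x := by
  obtain ⟨n, ⟨e⟩⟩ := Finite.exists_equiv_fin X
  set ι : X → ℕ := fun x => (e x : ℕ) with hι
  have hinj : ∀ x y, ι x = ι y → x = y := fun x y h => e.injective (Fin.ext h)
  refine ⟨fun x => if ι x < ι (σ x) then f x else 0, fun x => ?_⟩
  by_cases hx : σ x = x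
  · simp only [hx, lt_irrefl, if_false, add_zero]
    exact (hf0 x hx).symm
  · have hne : ι (σ x) ≠ ι x := fun h => hx (hinj _ _ h)
    simp only [hσ, hf]
    rcases lt_or_gt_of_ne hne with h | h
    · rw [if_pos h, if_neg (not_lt.mpr h.le), add_zero]
    · rw [if_neg (not_lt.mpr h.le), if_pos h, zero_add]

/-- Solving `h ∘ τ² + h ∘ τ + h = f` for a permutation `τ` of order `3`. -/
theorem exists_sol_three (τ : Equiv.Perm X) (hτ : ∀ x, τ (τ (τ x)) = x) (f : X → ℤ)
    (hf : ∀ x, f (τ x) = f x) (hf0 : ∀ x, τ x = x → f x = 0) :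
    ∃ h : X → ℤ, ∀ x, h (τ (τ x)) + h (τ x) + h x = f x := by
  obtain ⟨n, ⟨e⟩⟩ := Finite.exists_equiv_fin X
  set ι : X → ℕ := fun x => (e x : ℕ) with hι
  have hinj : ∀ x y, ι x = ι y → x = y := fun x y h => e.injective (Fin.ext h)
  refine ⟨fun x => if ι x < ι (τ x) ∧ ι x < ι (τ (τ x)) then f x else 0, fun x => ?_⟩
  by_cases hx : τ x = x
  · simp only [hx, lt_irrefl, and_self, if_false, add_zero]
    exact (hf0 x hx).symm
  · have h1 : ι (τ x) ≠ ι x := fun h => hx (hinj _ _ h)
    have h2 : ι (τ (τ x)) ≠ ι (τ x) := fun h => hx (by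
      have := hinj _ _ h
      have h3 := congrArg τ this
      rw [hτ] at h3
      have h4 := congrArg τ h3
      rw [hτ] at h4
      exact h4)
    have h3 : ι (τ (τ x)) ≠ ι x := fun h => hx (by
      have := hinj _ _ h
      have h3 := congrArg τ this
      rw [hτ] at h3
      exact h3.symm)
    simp only [hτ, hf]
    by_cases c1 : ι x < ι (τ x) <;> by_cases c2 : ι x < ι (τ (τ x)) <;>
      by_cases c3 : ι (τ x) < ι (τ (τ x)) <;> simp [c1, c2, c3] <;> omega

end Solve

section SL2

open ModularGroup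

theorem S_mul_S_eq_neg_one : (S : SL(2, ℤ)) * S = -1 := by
  ext i j
  fin_cases i <;> fin_cases j <;> simp [ModularGroup.S, Matrix.mul_apply, Fin.sum_univ_two]

theorem Umat_cube : Umat * Umat * Umat = -1 := by
  ext i j
  fin_cases i <;> fin_cases j <;>
    simp [Umat, ModularGroup.S, ModularGroup.T, Matrix.mul_apply, Fin.sum_univ_two]

theorem Umat_mul_S : Umat * S = T * (-1) := by
  rw [Umat, mul_assoc, S_mul_S_eq_neg_one]

variable {X : Type} [MulAction SL(2, ℤ) X]

theorem S_smul_S_smul (hneg : ∀ x : X, (-1 : SL(2, ℤ)) • x = x) (x : X) : S • S • x = x := by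
  rw [← mul_smul, S_mul_S_eq_neg_one, hneg]

theorem U_smul_cube (hneg : ∀ x : X, (-1 : SL(2, ℤ)) • x = x) (x : X) :
    Umat • Umat • Umat • x = x := by
  rw [← mul_smul, ← mul_smul, Umat_cube, hneg]

theorem U_smul_S_smul (hneg : ∀ x : X, (-1 : SL(2, ℤ)) • x = x) (x : X) :
    Umat • S • x = T • x := by
  rw [← mul_smul, Umat_mul_S, mul_smul, hneg]

theorem T_smul_S_smul (x : X) : T • S • x = Umat • x := by
  rw [← mul_smul]; rfl

end SL2

section Lift

open ModularGroup

variable (X : Type) [Fintype X] [MulAction SL(2, ℤ) X]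

/-- A Heisenberg lift of the pair of normalised crossed homomorphisms attached to `m, m' ∈ Kc`. -/
structure HeisLift (m m' : X → ℤ) where
  /-- first crossed homomorphism -/
  d : CrossedHom X ℤ
  /-- second crossed homomorphism -/
  d' : CrossedHom X ℤ
  /-- the Heisenberg component -/
  H : SL(2, ℤ) → X → ℤ
  H_mul : ∀ (g h : SL(2, ℤ)) (x : X), H (g * h) x = H g (h • x) + H h x + d g (h • x) * d' h x
  d_S : d S = m
  d_T : d T = 0
  d_neg : d (-1) = 0
  d'_S : d' S = m'
  d'_T : d' T = 0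
  d'_neg : d' (-1) = 0
  sum_H_T : 6 * ∑ x, H T x = - inner m m' - 2 * inner (fun x => m (Umat • x)) m'

variable {X}

theorem exists_heisLift (hP : Presentation) (hneg : ∀ x : X, (-1 : SL(2, ℤ)) • x = x)
    {m m' : X → ℤ} (hm : m ∈ Kc X) (hm' : m' ∈ Kc X) : Nonempty (HeisLift X m m') := by
  classical
  set σ : Equiv.Perm X := MulAction.toPerm (S : SL(2, ℤ)) with hσdef
  set τ : Equiv.Perm X := MulAction.toPerm Umat with hτdef
  have hσ : ∀ x, σ (σ x) = x := fun x => S_smul_S_smul hneg x
  have hτ : ∀ x, τ (τ (τ x)) = x := fun x => U_smul_cube hneg x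
  have hσx : ∀ x, σ x = S • x := fun _ => rfl
  have hτx : ∀ x, τ x = Umat • x := fun _ => rfl
  obtain ⟨hm1, hm2⟩ := hm
  obtain ⟨hm'1, hm'2⟩ := hm'
  have em : ∀ x, m (σ x) = - m x := fun x => by have := hm1 x; rw [hσx]; linarith
  have em' : ∀ x, m' (σ x) = - m' x := fun x => by have := hm'1 x; rw [hσx]; linarith
  have em2 : ∀ x, m (τ (τ x)) = - m x - m (τ x) := fun x => by
    have := hm2 x; rw [hτx, hτx]; linarith
  have em'2 : ∀ x, m' (τ (τ x)) = - m' x - m' (τ x) := fun x => by
    have := hm'2 x; rw [hτx, hτx]; linarith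
  -- the solutions
  obtain ⟨hS, hhS⟩ := exists_sol_two σ hσ (fun x => m x * m' x)
    (fun x => by simp only [em, em']; ring)
    (fun x hx => by
      have h1 := em x; rw [hx] at h1
      have : m x = 0 := by linarith
      simp [this])
  obtain ⟨hU, hhU⟩ := exists_sol_three τ hτ (fun x => m x * m' x - m (τ (τ x)) * m' (τ x))
    (fun x => by simp only [hτ, em2, em'2]; ring)
    (fun x hx => by
      have h1 := em2 x; rw [hx, hx] at h1
      have : m x = 0 := by linarith
      simp [hx, this])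
  -- the generators
  set s : Heis X := ⟨σ, m, m', hS⟩ with hs
  set u : Heis X := ⟨τ, m, m', hU⟩ with hu
  have hss : s * s = 1 := by
    apply Heis.ext
    · ext x; simp [hs, hσ]
    · funext x; simp [hs, em]
    · funext x; simp [hs, em']
    · funext x
      simp only [hs, Heis.mul_c, Heis.one_c, hhS x, em]
      ring
  have huuu : u * u * u = 1 := by
    apply Heis.ext
    · ext x; simp [hu, hτ]
    · funext x; simp only [hu, Heis.mul_a, Heis.one_a, em2]; ring
    · funext x; simp only [hu, Heis.mul_b, Heis.one_b, em'2]; ring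
    · funext x
      simp only [hu, Heis.mul_c, Heis.mul_a, Heis.one_c]
      have := hhU x
      simp only [em2] at this ⊢
      linear_combination this
  have hsinv : s⁻¹ = s := inv_eq_of_mul_eq_one_left hss
  have hs2 : s ^ 2 = 1 := by rw [pow_two, hss]
  have hu3 : (s * u * s) ^ 3 = 1 := by
    have h1 : s * u * s = s * u * s⁻¹ := by rw [hsinv]
    rw [h1, conj_pow, pow_succ, pow_two, huuu, mul_one, mul_inv_cancel]
  obtain ⟨Φ, hΦS, hΦST⟩ := hP (Heis X) s (s * u * s) hs2 hu3
  have hΦT : Φ T = u * s := by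
    have : Φ T = (Φ S)⁻¹ * Φ (S * T) := by rw [map_mul, inv_mul_cancel_left]
    rw [this, hΦS, hΦST, hsinv, ← mul_assoc, ← mul_assoc, hss, one_mul]
  have hΦneg : Φ (-1) = 1 := by rw [← S_mul_S_eq_neg_one, map_mul, hΦS, hss]
  -- the permutation component
  have hperm : Heis.permHom.comp Φ = MulAction.toPermHom SL(2, ℤ) X := by
    apply MonoidHom.eq_of_eqOn_dense SpecialLinearGroup.SL2Z_generators
    rintro g (rfl | rfl)
    · show (Φ S).perm = _
      rw [hΦS]; rfl
    · show (Φ T).perm = _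
      rw [hΦT]
      ext x
      show τ (σ x) = T • x
      rw [hσx, hτx, U_smul_S_smul hneg]
  have hpx : ∀ (g : SL(2, ℤ)) (x : X), (Φ g).perm x = g • x := fun g x => by
    have := congrArg (fun f => f g x) hperm
    simpa using this
  refine ⟨{ d := ⟨fun g => (Φ g).a, fun g h x => by rw [map_mul, Heis.mul_a, hpx]⟩
            d' := ⟨fun g => (Φ g).b, fun g h x => by rw [map_mul, Heis.mul_b, hpx]⟩
            H := fun g => (Φ g).c
            H_mul := fun g h x => by rw [map_mul, Heis.mul_c, hpx]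
            d_S := by show (Φ S).a = m; rw [hΦS]
            d_T := by
              show (Φ T).a = 0
              rw [hΦT]; funext x; simp [hs, hu, em]
            d_neg := by show (Φ (-1)).a = 0; rw [hΦneg]; rfl
            d'_S := by show (Φ S).b = m'; rw [hΦS]
            d'_T := by
              show (Φ T).b = 0
              rw [hΦT]; funext x; simp [hs, hu, em']
            d'_neg := by show (Φ (-1)).b = 0; rw [hΦneg]; rfl
            sum_H_T := ?_ }⟩
  show 6 * ∑ x, (Φ T).c x = _
  rw [hΦT]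
  simp only [hs, hu, Heis.mul_c, em]
  have e1 : ∑ x, hU (σ x) = ∑ x, hU x := Equiv.sum_comp σ hU
  have e2 : 2 * ∑ x, hS x = inner m m' := by
    have h1 : ∑ x, hS (σ x) = ∑ x, hS x := Equiv.sum_comp σ hS
    have h2 : ∑ x, (hS (σ x) + hS x) = ∑ x, m x * m' x := Finset.sum_congr rfl fun x _ => hhS x
    rw [Finset.sum_add_distrib, h1] at h2
    rw [inner, ← h2]; ring
  have e3 : 3 * ∑ x, hU x = inner m m' - inner (fun x => m (Umat • x)) m' := by
    have h1 : ∑ x, hU (τ x) = ∑ x, hU x := Equiv.sum_comp τ hU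
    have h1' : ∑ x, hU (τ (τ x)) = ∑ x, hU x := by
      rw [← h1]; exact Equiv.sum_comp τ (fun x => hU (τ x))
    have h2 : ∑ x, (hU (τ (τ x)) + hU (τ x) + hU x) =
        ∑ x, (m x * m' x - m (τ (τ x)) * m' (τ x)) := Finset.sum_congr rfl fun x _ => hhU x
    rw [Finset.sum_add_distrib, Finset.sum_add_distrib, h1, h1', Finset.sum_sub_distrib] at h2
    have h3 : ∑ x, m (τ (τ x)) * m' (τ x) = ∑ x, m (τ x) * m' x :=
      Equiv.sum_comp τ (fun x => m (τ x) * m' x)
    rw [h3] at h2
    simp only [inner, ← hτx]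
    rw [← h2]; ring
  have e4 : ∑ x, (hU (σ x) + hS x + -m x * m' x) = ∑ x, hU x + ∑ x, hS x - inner m m' := by
    rw [Finset.sum_add_distrib, Finset.sum_add_distrib, e1, inner]
    simp only [neg_mul, Finset.sum_neg_distrib]
    ring
  rw [e4]
  linear_combination 3 * e2 + 2 * e3

end Lift

end Fermat.Agent.LPD
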