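/-
Cluster L / PD (helper17): summing over a finite `G`-set orbit by orbit of a cyclic subgroup.
-/
import Mathlib

set_option autoImplicit false

noncomputable section

namespace Fermat.Agent.LPD

open MulAction Subgroup Function

/-- Sum over `ZMod n` as a sum over `range n`. -/
theorem sum_zmod_cast {M : Type*} [AddCommMonoid M] (n : ℕ) [NeZero n] (f : ℤ → M) :
    ∑ k : ZMod n, f (ZMod.cast k : ℤ) = ∑ j ∈ Finset.range n, f (j : ℤ) := by
  rcases n with _ | m
  · exact absurd rfl (NeZero.ne 0)
  · rw [← Fin.sum_univ_eq_sum_range (fun j => f (j : ℤ)) (m + 1)]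
    refine Finset.sum_congr rfl fun k _ => ?_
    congr 1

/-- Partition of a `G`-set into the orbits of `g`. -/
def equivSigmaZMod {G : Type*} [Group G] (X : Type*) [MulAction G X] (g : G) :
    X ≃ Σ q : orbitRel.Quotient (zpowers g) X, ZMod (minimalPeriod (g • ·) q.out) :=
  (selfEquivSigmaOrbits (zpowers g) X).trans
    (Equiv.sigmaCongrRight fun q => orbitZPowersEquiv g q.out)

theorem equivSigmaZMod_symm_apply {G : Type*} [Group G] (X : Type*) [MulAction G X] (g : G)
    (q : orbitRel.Quotient (zpowers g) X) (k : ZMod (minimalPeriod (g • ·) q.out)) :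
    (equivSigmaZMod X g).symm ⟨q, k⟩ = g ^ (ZMod.cast k : ℤ) • q.out := rfl

/-- Summation orbit by orbit. -/
theorem sum_eq_sum_orbits {G : Type*} [Group G] {X : Type*} [MulAction G X] [Fintype X] (g : G)
    [Fintype (orbitRel.Quotient (zpowers g) X)] {M : Type*} [AddCommMonoid M] (F : X → M) :
    ∑ x, F x = ∑ q : orbitRel.Quotient (zpowers g) X,
      ∑ j ∈ Finset.range (minimalPeriod (g • ·) q.out), F (g ^ j • q.out) := by
  classical
  calc ∑ x, F x = ∑ y : (Σ q : orbitRel.Quotient (zpowers g) X,
        ZMod (minimalPeriod (g • ·) q.out)), F ((equivSigmaZMod X g).symm y) :=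
        ((equivSigmaZMod X g).symm.sum_comp F).symm
    _ = ∑ q : orbitRel.Quotient (zpowers g) X, ∑ k : ZMod (minimalPeriod (g • ·) q.out),
        F ((equivSigmaZMod X g).symm ⟨q, k⟩) := Finset.sum_sigma _ _ _
    _ = _ := by
      refine Fintype.sum_congr _ _ fun q => ?_
      simp only [equivSigmaZMod_symm_apply]
      rw [sum_zmod_cast (minimalPeriod (g • ·) q.out) (fun k : ℤ => F (g ^ k • q.out))]
      simp only [zpow_natCast]

end Fermat.Agent.LPD
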