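/-
Cluster L / PD (helper17): the cusp sum of the primitive given by a Heisenberg lift.

`X = G ⧸ Γ`, `x₀` the class of `1`, `L : HeisLift X m m'`.  Then `η γ := L.H γ x₀` is a primitive
of `ev d ∪ ev d'` and `6 * cuspSum Γ η = - ⟨m, m'⟩ - 2 ⟨m ∘ U, m'⟩`.
-/
import Fermat.Agent.L.PD.Heis
import Fermat.Agent.L.PD.Orbit

set_option autoImplicit false

noncomputable section

namespace Fermat.Agent.LPD

open scoped MatrixGroups
open ModularGroup MulAction

section General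

variable {X : Type} [Fintype X] [MulAction SL(2, ℤ) X] {m m' : X → ℤ} (L : HeisLift X m m')

theorem HeisLift.H_one (x : X) : L.H 1 x = 0 := by
  have h := L.H_mul 1 1 x
  rw [one_smul, mul_one, L.d.map_one, zero_mul, add_zero] at h
  linarith

theorem HeisLift.d_T_pow (k : ℕ) : L.d (T ^ k) = 0 := by
  induction k with
  | zero => funext x; rw [pow_zero]; exact L.d.map_one x
  | succ k ih =>
    funext x
    rw [pow_succ, L.d.map_mul, ih, L.d_T]
    simp

theorem HeisLift.d'_T_pow (k : ℕ) : L.d' (T ^ k) = 0 := by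
  induction k with
  | zero => funext x; rw [pow_zero]; exact L.d'.map_one x
  | succ k ih =>
    funext x
    rw [pow_succ, L.d'.map_mul, ih, L.d'_T]
    simp

theorem HeisLift.H_T_pow (k : ℕ) (y : X) :
    L.H (T ^ k) y = ∑ j ∈ Finset.range k, L.H T (T ^ j • y) := by
  induction k generalizing y with
  | zero => rw [pow_zero, L.H_one]; simp
  | succ k ih =>
    rw [pow_succ, L.H_mul, L.d_T_pow, ih, Finset.sum_range_succ', pow_zero, one_smul]
    simp only [Pi.zero_apply, zero_mul, add_zero]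
    congr 1
    refine Finset.sum_congr rfl fun j _ => ?_
    rw [pow_succ, mul_smul]

/-- conjugation formula: if `t` fixes `g • x` and `d t = d' t = 0` then
`H (g⁻¹ t g) x = H t (g • x)`. -/
theorem HeisLift.H_conj (g t : SL(2, ℤ)) (x : X) (ht : t • g • x = g • x)
    (h1 : L.d t = 0) (h2 : L.d' t = 0) :
    L.H (g⁻¹ * t * g) x = L.H t (g • x) := by
  have e0 : L.H (g⁻¹ * g) x = 0 := by rw [inv_mul_cancel, L.H_one]
  rw [L.H_mul] at e0
  rw [L.H_mul, L.H_mul, L.d.map_mul, h1, h2, ht]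
  simp only [Pi.zero_apply, mul_zero, add_zero]
  linarith

end General

section Coset

variable (Γ : Subgroup SL(2, ℤ)) [Fintype (SL(2, ℤ) ⧸ Γ)]
  {m m' : (SL(2, ℤ) ⧸ Γ) → ℤ} (L : HeisLift (SL(2, ℤ) ⧸ Γ) m m')

/-- The primitive attached to a Heisenberg lift. -/
def HeisLift.eta (γ : Γ) : ℤ := L.H (γ : SL(2, ℤ)) ((1 : SL(2, ℤ)) : SL(2, ℤ) ⧸ Γ)

omit [Fintype (SL(2, ℤ) ⧸ Γ)] in
theorem smul_base (γ : Γ) :
    (γ : SL(2, ℤ)) • (((1 : SL(2, ℤ)) : SL(2, ℤ) ⧸ Γ)) = ((1 : SL(2, ℤ)) : SL(2, ℤ) ⧸ Γ) := by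
  rw [MulAction.Quotient.smul_mk, QuotientGroup.eq]
  simp

theorem HeisLift.isEta : IsEta L.d.ev L.d'.ev (L.eta Γ) := by
  intro a b
  simp only [HeisLift.eta, CrossedHom.ev_apply, Subgroup.coe_mul]
  rw [L.H_mul, smul_base]

omit [Fintype (SL(2, ℤ) ⧸ Γ)] in
theorem out_smul_base (x : SL(2, ℤ) ⧸ Γ) :
    (Quotient.out x : SL(2, ℤ)) • (((1 : SL(2, ℤ)) : SL(2, ℤ) ⧸ Γ)) = x := by
  rw [MulAction.Quotient.smul_mk, smul_eq_mul, mul_one]
  exact QuotientGroup.out_eq' x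

theorem HeisLift.eta_cuspElt (x : SL(2, ℤ) ⧸ Γ) :
    L.eta Γ (cuspElt Γ x) =
      ∑ j ∈ Finset.range (Function.minimalPeriod (fun y => T • y) x), L.H T (T ^ j • x) := by
  have hfix : T ^ Function.minimalPeriod (fun y => T • y) x • x = x :=
    MulAction.pow_period_smul (T : SL(2, ℤ)) x
  show L.H ((cuspElt Γ x : Γ) : SL(2, ℤ)) _ = _
  simp only [cuspElt]
  rw [L.H_conj _ _ _ (by rw [out_smul_base]; exact hfix) (L.d_T_pow _) (L.d'_T_pow _),
    out_smul_base, L.H_T_pow]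

/-- The cusp sum of the primitive attached to a Heisenberg lift. -/
theorem HeisLift.cuspSum_eta :
    6 * cuspSum Γ (L.eta Γ) = - inner m m' - 2 * inner (fun x => m (Umat • x)) m' := by
  classical
  rw [← L.sum_H_T]
  congr 1
  rw [sum_eq_sum_orbits (T : SL(2, ℤ)) (L.H T), cuspSum, finsum_eq_sum_of_fintype]
  refine Finset.sum_congr
    (Finset.ext fun a => ⟨fun _ => Finset.mem_univ _, fun _ => Finset.mem_univ _⟩) fun q _ => ?_
  exact L.eta_cuspElt Γ q.out

end Coset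

end Fermat.Agent.LPD
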