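/-
Cluster L / PD piece (M1): `SL(2,ℤ)` maps to every group containing an element `s` with
`s ^ 2 = 1` and an element `u` with `u ^ 3 = 1`, by `S ↦ s`, `S * T ↦ u`
(presentation of `PSL(2,ℤ) = C₂ * C₃`), proved by ping-pong on the upper half plane.
-/
import Mathlib

namespace Fermat.Agent.LPD

open Matrix Matrix.SpecialLinearGroup UpperHalfPlane ModularGroup
open scoped MatrixGroups Pointwise Cardinal

/-- The homomorphism from the cyclic group of order `n` sending the generator to `x`. -/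
noncomputable def cycHom {E : Type*} [Group E] (n : ℕ) (x : E) (hx : x ^ n = 1) :
    Multiplicative (ZMod n) →* E :=
  AddMonoidHom.toMultiplicativeLeft
    (ZMod.lift n ⟨zmultiplesHom (Additive E) (Additive.ofMul x), by
      simp only [zmultiplesHom_apply, natCast_zsmul]
      rw [← ofMul_pow, hx, ofMul_one]⟩)

theorem cycHom_ofAdd_intCast {E : Type*} [Group E] (n : ℕ) (x : E) (hx : x ^ n = 1) (k : ℤ) :
    cycHom n x hx (Multiplicative.ofAdd (k : ZMod n)) = x ^ k := by
  change Additive.toMul (ZMod.lift n _ (k : ZMod n)) = x ^ k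
  rw [ZMod.lift_coe]
  simp

theorem cycHom_ofAdd_one {E : Type*} [Group E] (n : ℕ) (x : E) (hx : x ^ n = 1) :
    cycHom n x hx (Multiplicative.ofAdd (1 : ZMod n)) = x := by
  have := cycHom_ofAdd_intCast n x hx 1
  simpa using this

theorem cycHom_ofAdd_two {E : Type*} [Group E] (n : ℕ) (x : E) (hx : x ^ n = 1) :
    cycHom n x hx (Multiplicative.ofAdd (2 : ZMod n)) = x ^ 2 := by
  have := cycHom_ofAdd_intCast n x hx 2
  simpa using this

/-- The action of `SL(2,ℤ)` on the upper half plane, as a homomorphism to permutations. -/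
noncomputable def rhoH : SL(2,ℤ) →* Equiv.Perm ℍ := MulAction.toPermHom SL(2,ℤ) ℍ

theorem rhoH_apply (g : SL(2,ℤ)) (z : ℍ) : rhoH g z = g • z := rfl

theorem rhoH_neg (g : SL(2,ℤ)) : rhoH (-g) = rhoH g := by
  ext z
  simp only [rhoH_apply]
  rw [ModularGroup.SL_neg_smul]

theorem S_sq_eq : (S : SL(2,ℤ)) ^ 2 = -1 := by
  apply Subtype.ext
  rw [Matrix.SpecialLinearGroup.coe_pow, pow_two, S_mul_S_eq]
  simp

theorem ST_cube_eq : ((S : SL(2,ℤ)) * T) ^ 3 = -1 := by
  apply Subtype.ext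
  rw [Matrix.SpecialLinearGroup.coe_pow, Matrix.SpecialLinearGroup.coe_mul, coe_S, coe_T]
  simp [pow_succ, Matrix.one_fin_two]

theorem rhoH_S_sq : rhoH S ^ 2 = 1 := by
  rw [← map_pow, S_sq_eq, rhoH_neg, map_one]

theorem rhoH_ST_cube : rhoH (S * T) ^ 3 = 1 := by
  rw [← map_pow, ST_cube_eq, rhoH_neg, map_one]

theorem re_S_smul (z : ℍ) : (S • z).re = - z.re / Complex.normSq (z : ℂ) := by
  rw [UpperHalfPlane.modular_S_smul]
  change ((-(z : ℂ))⁻¹).re = _
  rw [Complex.inv_re]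
  simp

theorem re_T_smul (z : ℍ) : (T • z).re = z.re + 1 := by
  rw [UpperHalfPlane.modular_T_smul]
  simp [add_comm]

theorem normSq_pos_coe (z : ℍ) : 0 < Complex.normSq (z : ℂ) :=
  Complex.normSq_pos.mpr z.ne_zero

theorem re_S_smul_pos {z : ℍ} (hz : z.re < 0) : 0 < (S • z).re := by
  rw [re_S_smul]
  exact div_pos (by linarith) (normSq_pos_coe z)

theorem re_S_smul_neg {z : ℍ} (hz : 0 < z.re) : (S • z).re < 0 := by
  rw [re_S_smul]
  exact div_neg_of_neg_of_pos (by linarith) (normSq_pos_coe z)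

theorem re_ST_smul_neg {z : ℍ} (hz : 0 < z.re) : ((S * T) • z).re < 0 := by
  rw [mul_smul]
  apply re_S_smul_neg
  rw [re_T_smul]
  linarith

theorem re_ST_smul_gt {z : ℍ} (hz : 0 < z.re) : -1 < ((S * T) • z).re := by
  rw [mul_smul, re_S_smul, re_T_smul]
  have hpos := normSq_pos_coe (T • z)
  rw [lt_div_iff₀ hpos]
  have h1 : Complex.normSq ((T • z : ℍ) : ℂ) = (z.re + 1) ^ 2 + z.im ^ 2 := by
    rw [Complex.normSq_apply]
    have e1 : ((T • z : ℍ) : ℂ).re = z.re + 1 := re_T_smul z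
    have e2 : ((T • z : ℍ) : ℂ).im = z.im := by
      change (T • z).im = z.im
      rw [UpperHalfPlane.modular_T_smul]
      simp
    rw [e1, e2]
    ring
  rw [h1]
  nlinarith [z.im_pos, sq_nonneg z.im]

theorem re_ST_sq_smul_neg {z : ℍ} (hz : 0 < z.re) : (((S * T) ^ 2) • z).re < 0 := by
  rw [pow_two, mul_smul]
  have h1 := re_ST_smul_neg hz
  have h2 := re_ST_smul_gt hz
  set w := (S * T) • z with hw
  rw [mul_smul]
  -- re (S • (T • w)) where -1 < re w < 0, so 0 < re (T w) < 1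
  apply re_S_smul_neg
  rw [re_T_smul]
  linarith

/-- The two cyclic factors. -/
abbrev CG (i : Fin 2) : Type := Multiplicative (ZMod (i.val + 2))

/-- The pair of homomorphisms `C₂ → E`, `C₃ → E` attached to `s`, `u`. -/
noncomputable def genHom {E : Type*} [Group E] (s u : E) (hs : s ^ 2 = 1) (hu : u ^ 3 = 1) :
    ∀ i : Fin 2, CG i →* E
  | ⟨0, _⟩ => cycHom 2 s hs
  | ⟨1, _⟩ => cycHom 3 u hu

theorem genHom_zero {E : Type*} [Group E] (s u : E) (hs : s ^ 2 = 1) (hu : u ^ 3 = 1) :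
    genHom s u hs hu 0 = cycHom 2 s hs := rfl

theorem genHom_one {E : Type*} [Group E] (s u : E) (hs : s ^ 2 = 1) (hu : u ^ 3 = 1) :
    genHom s u hs hu 1 = cycHom 3 u hu := rfl

/-- The two generators of the free product. -/
noncomputable def gen0 : Monoid.CoprodI CG :=
  Monoid.CoprodI.of (i := (0 : Fin 2)) (Multiplicative.ofAdd (1 : ZMod 2))

noncomputable def gen1 : Monoid.CoprodI CG :=
  Monoid.CoprodI.of (i := (1 : Fin 2)) (Multiplicative.ofAdd (1 : ZMod 3))

theorem lift_gen0 {E : Type*} [Group E] (s u : E) (hs : s ^ 2 = 1) (hu : u ^ 3 = 1) :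
    Monoid.CoprodI.lift (genHom s u hs hu) gen0 = s := by
  rw [gen0, Monoid.CoprodI.lift_of, genHom_zero]
  exact cycHom_ofAdd_one 2 s hs

theorem lift_gen1 {E : Type*} [Group E] (s u : E) (hs : s ^ 2 = 1) (hu : u ^ 3 = 1) :
    Monoid.CoprodI.lift (genHom s u hs hu) gen1 = u := by
  rw [gen1, Monoid.CoprodI.lift_of, genHom_one]
  exact cycHom_ofAdd_one 3 u hu

/-- The ping-pong sets. -/
def ppSet : Fin 2 → Set ℍ
  | ⟨0, _⟩ => {z | 0 < z.re}
  | ⟨1, _⟩ => {z | z.re < 0}

theorem ppSet_zero : ppSet 0 = {z | 0 < z.re} := rfl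
theorem ppSet_one : ppSet 1 = {z | z.re < 0} := rfl

/-- A point of the upper half plane with prescribed real part. -/
noncomputable def ptRe (x : ℝ) : ℍ := ⟨⟨x, 1⟩, by simp⟩

theorem ptRe_re (x : ℝ) : (ptRe x).re = x := rfl

/-- The homomorphism from `C₂ * C₃` to the permutations of the upper half plane. -/
noncomputable def ppLift : Monoid.CoprodI CG →* Equiv.Perm ℍ :=
  Monoid.CoprodI.lift (genHom (rhoH S) (rhoH (S * T)) rhoH_S_sq rhoH_ST_cube)

theorem ppLift_injective : Function.Injective ppLift := by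
  refine Monoid.CoprodI.lift_injective_of_ping_pong
    (genHom (rhoH S) (rhoH (S * T)) rhoH_S_sq rhoH_ST_cube) (Or.inr ⟨1, ?_⟩) ppSet ?_ ?_ ?_
  · change (3 : Cardinal) ≤ #(Multiplicative (ZMod 3))
    rw [Cardinal.mk_fintype]
    have : Fintype.card (Multiplicative (ZMod 3)) = 3 := by
      rw [Fintype.card_multiplicative, ZMod.card]
    rw [this]
    norm_num
  · intro i
    fin_cases i
    · exact ⟨ptRe 1, by change (0:ℝ) < (ptRe 1).re; rw [ptRe_re]; norm_num⟩
    · exact ⟨ptRe (-1), by change (ptRe (-1)).re < 0; rw [ptRe_re]; norm_num⟩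
  · intro i j hij
    fin_cases i <;> fin_cases j
    · exact absurd rfl hij
    · change Disjoint {z : ℍ | 0 < z.re} {z : ℍ | z.re < 0}
      rw [Set.disjoint_left]
      intro z hz hz'
      have h1 : 0 < z.re := hz
      have h2 : z.re < 0 := hz'
      linarith
    · change Disjoint {z : ℍ | z.re < 0} {z : ℍ | 0 < z.re}
      rw [Set.disjoint_left]
      intro z hz hz'
      have h1 : z.re < 0 := hz
      have h2 : 0 < z.re := hz'
      linarith
    · exact absurd rfl hij
  · intro i j hij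
    fin_cases i <;> fin_cases j
    · exact absurd rfl hij
    · intro h hne
      change (cycHom 2 (rhoH S) rhoH_S_sq h) • {z : ℍ | z.re < 0} ⊆ {z : ℍ | 0 < z.re}
      have key : ∀ a : ZMod 2, a ≠ 0 → a = 1 := by decide
      have ha : Multiplicative.toAdd h = 1 := key _ (fun h0 => hne (by
        rw [← ofAdd_toAdd h, h0]; rfl))
      have hh : h = Multiplicative.ofAdd (1 : ZMod 2) := by rw [← ha]; rfl
      rw [hh, cycHom_ofAdd_one]
      rintro _ ⟨z, hz, rfl⟩
      exact re_S_smul_pos hz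
    · intro h hne
      change (cycHom 3 (rhoH (S * T)) rhoH_ST_cube h) • {z : ℍ | 0 < z.re} ⊆ {z : ℍ | z.re < 0}
      have key : ∀ a : ZMod 3, a ≠ 0 → a = 1 ∨ a = 2 := by decide
      have ha : Multiplicative.toAdd h = 1 ∨ Multiplicative.toAdd h = 2 :=
        key _ (fun h0 => hne (by rw [← ofAdd_toAdd h, h0]; rfl))
      rcases ha with ha | ha
      · have hh : h = Multiplicative.ofAdd (1 : ZMod 3) := by rw [← ha]; rfl
        rw [hh, cycHom_ofAdd_one]
        rintro _ ⟨z, hz, rfl⟩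
        exact re_ST_smul_neg hz
      · have hh : h = Multiplicative.ofAdd (2 : ZMod 3) := by rw [← ha]; rfl
        rw [hh, cycHom_ofAdd_two, ← map_pow]
        rintro _ ⟨z, hz, rfl⟩
        exact re_ST_sq_smul_neg hz
    · exact absurd rfl hij

theorem rhoH_S_eq : rhoH S = ppLift gen0 := (lift_gen0 _ _ _ _).symm

theorem rhoH_ST_eq : rhoH (S * T) = ppLift gen1 := (lift_gen1 _ _ _ _).symm

theorem rhoH_range_le : rhoH.range ≤ ppLift.range := by
  have hS : rhoH S ∈ ppLift.range := ⟨gen0, rhoH_S_eq.symm⟩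
  have hST : rhoH (S * T) ∈ ppLift.range := ⟨gen1, rhoH_ST_eq.symm⟩
  have hT : rhoH T ∈ ppLift.range := by
    have : rhoH T = (rhoH S)⁻¹ * rhoH (S * T) := by
      rw [map_mul, inv_mul_cancel_left]
    rw [this]
    exact mul_mem (inv_mem hS) hST
  rw [MonoidHom.range_eq_map, ← SpecialLinearGroup.SL2Z_generators, MonoidHom.map_closure,
    Subgroup.closure_le]
  rintro _ ⟨g, hg, rfl⟩
  rcases hg with rfl | rfl
  · exact hS
  · exact hT

/-- **(M1)** `SL(2,ℤ)` maps to any group with a pair `s`, `u`, `s² = 1 = u³`, by `S ↦ s`,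
`S * T ↦ u`. -/
theorem exists_hom_of_relations {E : Type*} [Group E] (s u : E) (hs : s ^ 2 = 1)
    (hu : u ^ 3 = 1) :
    ∃ Φ : SL(2,ℤ) →* E, Φ S = s ∧ Φ (S * T) = u := by
  let e : Monoid.CoprodI CG ≃* ppLift.range := MonoidHom.ofInjective ppLift_injective
  let r : SL(2,ℤ) →* ppLift.range :=
    rhoH.codRestrict ppLift.range (fun g => rhoH_range_le ⟨g, rfl⟩)
  let Φ : SL(2,ℤ) →* E :=
    (Monoid.CoprodI.lift (genHom s u hs hu)).comp (e.symm.toMonoidHom.comp r)
  have key : ∀ (g : SL(2,ℤ)) (w : Monoid.CoprodI CG), rhoH g = ppLift w →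
      Φ g = Monoid.CoprodI.lift (genHom s u hs hu) w := by
    intro g w hgw
    change Monoid.CoprodI.lift (genHom s u hs hu) (e.symm (r g)) = _
    congr 1
    rw [MulEquiv.symm_apply_eq]
    apply Subtype.ext
    exact hgw
  refine ⟨Φ, ?_, ?_⟩
  · rw [key S gen0 rhoH_S_eq, lift_gen0]
  · rw [key (S * T) gen1 rhoH_ST_eq, lift_gen1]

end Fermat.Agent.LPD
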