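/-
Cluster L / PD, work package (SH): Shapiro's lemma for parabolic homomorphisms.
OWNER: helper54.  Statements fixed by helper17 (NOTES/blueprint-L-PD.md).

`X = G ⧸ Γ`, `x₀` = class of `1`, crossed homomorphisms in the RIGHT convention
`d (g * h) x = d g (h • x) + d h x`, `ev d γ = d γ x₀`.

Proofs.
 * `ev_mem_parabolicHoms`: a parabolic `γ ∈ Γ` is `± g⁻¹ T^n g`
   (`Fermat.Agent.S16.LB.Residue.exists_conj_of_trace_two` applied to `γ` or `-γ`);
   `d (g⁻¹ T^n g) x₀ = d (T^n) (g • x₀) = 0`  (cocycle rule, `T^n g • x₀ = g • x₀`, `d T = 0`).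
 * `exists_crossedHom_of_homPar`: `r := Quotient.out`, `d_φ g x := φ (r (g • x)⁻¹ * g * r x)` is a
   crossed homomorphism with `ev d_φ = φ`; `d_φ (T ^ n) y = 0` whenever `T ^ n • y = y`, so
   `d_φ T = w ∘ T - w` for some `w` and `d := d_φ - δ w` has `d T = 0`;
   `d (-1) = 0` since `-1` acts trivially and `ℤ` is torsion-free; then `d S ∈ Kc` from `S² = -1`,
   `Umat³ = -1`, `d Umat = d S`.
-/
import Fermat.Agent.L.PD.Defs
import Fermat.Agent.S16.LB.Residue.Parabolic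

set_option autoImplicit false

noncomputable section

namespace Fermat.Agent.LPD

open scoped MatrixGroups
open ModularCurve.Period

section General

variable {Γ : Subgroup SL(2, ℤ)}

/-- `-1` acts trivially on `G ⧸ Γ` when `-1 ∈ Γ`. -/
theorem sh_neg_one_smul (hneg : (-1 : SL(2, ℤ)) ∈ Γ) (x : SL(2, ℤ) ⧸ Γ) :
    (-1 : SL(2, ℤ)) • x = x := by
  induction x using QuotientGroup.induction_on with
  | H g =>
    rw [MulAction.Quotient.smul_mk, QuotientGroup.eq, smul_eq_mul]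
    have h : ((-1 : SL(2, ℤ)) * g)⁻¹ * g = -1 := by
      rw [mul_inv_rev, mul_assoc]
      have h1 : (-1 : SL(2, ℤ))⁻¹ = -1 := by
        rw [inv_eq_iff_eq_inv, eq_inv_iff_mul_eq_one]
        simp
      rw [h1, neg_one_mul, mul_neg, inv_mul_cancel]
    rw [h]
    exact hneg

/-- a crossed homomorphism with values in `ℤ` vanishes at `-1` (when `-1 ∈ Γ`). -/
theorem CrossedHom.map_neg_one (hneg : (-1 : SL(2, ℤ)) ∈ Γ)
    (d : CrossedHom (SL(2, ℤ) ⧸ Γ) ℤ) (x : SL(2, ℤ) ⧸ Γ) : d (-1) x = 0 := by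
  have h := d.map_mul (-1) (-1) x
  rw [sh_neg_one_smul hneg] at h
  have h1 : (-1 : SL(2, ℤ)) * (-1) = 1 := by simp
  rw [h1, d.map_one] at h
  omega

/-- a crossed homomorphism vanishing at `T` vanishes at the natural powers of `T`. -/
theorem CrossedHom.map_T_pow {X : Type*} [MulAction SL(2, ℤ) X] (d : CrossedHom X ℤ)
    (hT : ∀ x, d ModularGroup.T x = 0) (n : ℕ) (x : X) : d (ModularGroup.T ^ n) x = 0 := by
  induction n generalizing x with
  | zero => rw [pow_zero, d.map_one]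
  | succ n ih => rw [pow_succ, d.map_mul, ih, hT, add_zero]

/-- a crossed homomorphism vanishing at `T` vanishes at all powers of `T`. -/
theorem CrossedHom.map_T_zpow {X : Type*} [MulAction SL(2, ℤ) X] (d : CrossedHom X ℤ)
    (hT : ∀ x, d ModularGroup.T x = 0) (k : ℤ) (x : X) : d (ModularGroup.T ^ k) x = 0 := by
  obtain ⟨n, rfl | rfl⟩ := Int.eq_nat_or_neg k
  · rw [zpow_natCast]
    exact d.map_T_pow hT n x
  · rw [zpow_neg, zpow_natCast, d.map_inv, d.map_T_pow hT, neg_zero]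

/-- a crossed homomorphism vanishing at `T` vanishes at the conjugates of powers of `T`
at the points they fix. -/
theorem CrossedHom.map_conj_T_zpow {X : Type*} [MulAction SL(2, ℤ) X] (d : CrossedHom X ℤ)
    (hT : ∀ x, d ModularGroup.T x = 0) (g : SL(2, ℤ)) (k : ℤ) (x : X)
    (hx : (g⁻¹ * ModularGroup.T ^ k * g) • x = x) :
    d (g⁻¹ * ModularGroup.T ^ k * g) x = 0 := by
  have h1 : ModularGroup.T ^ k • g • x = g • x := by
    have h2 := congrArg (fun y => g • y) hx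
    simp only [mul_smul, smul_inv_smul] at h2
    exact h2
  rw [d.map_mul, d.map_mul, h1, d.map_T_zpow hT, d.map_inv, inv_smul_smul]
  ring

/-- the trace of a conjugate of a power of `T` is `2`. -/
theorem sh_trace_conj_T_zpow (g : SL(2, ℤ)) (k : ℤ) :
    ((g⁻¹ * ModularGroup.T ^ k * g : SL(2, ℤ)) : Matrix (Fin 2) (Fin 2) ℤ).trace = 2 := by
  rw [Fermat.Agent.S16.LB.Residue.conj_T_zpow_coe, Matrix.trace_fin_two_of]
  ring

end General

/-- **(SH1)** a crossed homomorphism with `d T = 0` and `d (-1) = 0` induces a parabolic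
homomorphism of `Γ`. -/
theorem CrossedHom.ev_mem_parabolicHoms (Γ : Subgroup SL(2, ℤ)) (hneg : (-1 : SL(2, ℤ)) ∈ Γ)
    (d : CrossedHom (SL(2, ℤ) ⧸ Γ) ℤ) (hT : d ModularGroup.T = 0) (hd : d (-1) = 0) :
    d.ev ∈ parabolicHoms ℤ Γ ℤ := by
  have hT' : ∀ x, d ModularGroup.T x = 0 := fun x => congrFun hT x
  -- elements of trace `2`
  have key : ∀ γ : SL(2, ℤ), γ ∈ Γ → (γ : Matrix (Fin 2) (Fin 2) ℤ).trace = 2 →
      d γ ((1 : SL(2, ℤ)) : SL(2, ℤ) ⧸ Γ) = 0 := by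
    intro γ hγ htr
    obtain ⟨g, k, hgk⟩ := Fermat.Agent.S16.LB.Residue.exists_conj_of_trace_two γ htr
    have hfix : γ • ((1 : SL(2, ℤ)) : SL(2, ℤ) ⧸ Γ) = ((1 : SL(2, ℤ)) : SL(2, ℤ) ⧸ Γ) := by
      rw [MulAction.Quotient.smul_mk, QuotientGroup.eq]
      simpa using hγ
    rw [hgk] at hfix ⊢
    exact d.map_conj_T_zpow hT' g k _ hfix
  intro γ hγ
  rw [CrossedHom.ev_apply]
  have htr : ((γ : SL(2, ℤ)) : Matrix (Fin 2) (Fin 2) ℤ).trace = 2 ∨
      ((γ : SL(2, ℤ)) : Matrix (Fin 2) (Fin 2) ℤ).trace = -2 := by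
    have h4 : (((γ : SL(2, ℤ)) : Matrix (Fin 2) (Fin 2) ℤ).trace - 2) *
        (((γ : SL(2, ℤ)) : Matrix (Fin 2) (Fin 2) ℤ).trace + 2) = 0 := by
      linear_combination hγ
    rcases mul_eq_zero.mp h4 with h | h
    · left; omega
    · right; omega
  rcases htr with h | h
  · exact key γ γ.2 h
  · -- `γ = (-1) * (-γ)`
    have hmem : -(γ : SL(2, ℤ)) ∈ Γ := by
      have := Γ.mul_mem hneg γ.2
      rwa [neg_one_mul] at this
    have htr' : ((-(γ : SL(2, ℤ)) : SL(2, ℤ)) : Matrix (Fin 2) (Fin 2) ℤ).trace = 2 := by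
      rw [Matrix.SpecialLinearGroup.coe_neg, Matrix.trace_neg, h]
      norm_num
    have h1 : (γ : SL(2, ℤ)) = (-1) * (-(γ : SL(2, ℤ))) := by simp
    rw [h1, d.map_mul, key _ hmem htr', add_zero]
    exact congrFun hd _

section Construction

variable (Γ : Subgroup SL(2, ℤ))

/-- the element `r (g • x)⁻¹ * g * r x` of `Γ` (`r = Quotient.out`). -/
def shElt (g : SL(2, ℤ)) (x : SL(2, ℤ) ⧸ Γ) : Γ :=
  ⟨(Quotient.out (g • x))⁻¹ * g * Quotient.out x, by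
    rw [mul_assoc, ← QuotientGroup.eq, QuotientGroup.out_eq', ← smul_eq_mul,
      ← MulAction.Quotient.smul_mk, QuotientGroup.out_eq']⟩

theorem coe_shElt (g : SL(2, ℤ)) (x : SL(2, ℤ) ⧸ Γ) :
    ((shElt Γ g x : Γ) : SL(2, ℤ)) = (Quotient.out (g • x))⁻¹ * g * Quotient.out x := rfl

theorem shElt_mul (g h : SL(2, ℤ)) (x : SL(2, ℤ) ⧸ Γ) :
    shElt Γ (g * h) x = shElt Γ g (h • x) * shElt Γ h x := by
  apply Subtype.ext
  rw [Subgroup.coe_mul, coe_shElt, coe_shElt, coe_shElt, mul_smul]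
  group

variable {Γ}

/-- the crossed homomorphism `d_φ g x = φ (r (g • x)⁻¹ * g * r x)`. -/
def shCross (φ : Additive Γ →+ ℤ) : CrossedHom (SL(2, ℤ) ⧸ Γ) ℤ where
  toFun g x := φ (Additive.ofMul (shElt Γ g x))
  map_mul' g h x := by
    rw [shElt_mul, ofMul_mul, map_add]

theorem shCross_apply (φ : Additive Γ →+ ℤ) (g : SL(2, ℤ)) (x : SL(2, ℤ) ⧸ Γ) :
    shCross φ g x = φ (Additive.ofMul (shElt Γ g x)) := rfl

/-- `d_φ (T ^ n) y = 0` when `T ^ n` fixes `y`. -/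
theorem shCross_T_zpow_of_fix (φ : Additive Γ →+ ℤ) (hφ : φ ∈ parabolicHoms ℤ Γ ℤ)
    (n : ℤ) (y : SL(2, ℤ) ⧸ Γ) (hy : ModularGroup.T ^ n • y = y) :
    shCross φ (ModularGroup.T ^ n) y = 0 := by
  rw [shCross_apply]
  apply hφ
  have h1 : ((shElt Γ (ModularGroup.T ^ n) y : Γ) : SL(2, ℤ)) =
      (Quotient.out y)⁻¹ * ModularGroup.T ^ n * Quotient.out y := by
    rw [coe_shElt, hy]
  rw [h1, sh_trace_conj_T_zpow]
  norm_num

/-- `d_φ (T ^ i) y` only depends on `T ^ i • y`. -/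
theorem shCross_T_zpow_congr (φ : Additive Γ →+ ℤ) (hφ : φ ∈ parabolicHoms ℤ Γ ℤ)
    (i j : ℤ) (y : SL(2, ℤ) ⧸ Γ) (hy : ModularGroup.T ^ i • y = ModularGroup.T ^ j • y) :
    shCross φ (ModularGroup.T ^ i) y = shCross φ (ModularGroup.T ^ j) y := by
  have hfix : ModularGroup.T ^ (i - j) • y = y := by
    have h2 := congrArg (fun z => (ModularGroup.T ^ j)⁻¹ • z) hy
    simp only [inv_smul_smul] at h2
    have h3 : ModularGroup.T ^ (i - j) = (ModularGroup.T ^ j)⁻¹ * ModularGroup.T ^ i := by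
      rw [← zpow_neg, ← zpow_add]
      congr 1
      ring
    rw [h3, mul_smul]
    exact h2
  have h1 : ModularGroup.T ^ i = ModularGroup.T ^ j * ModularGroup.T ^ (i - j) := by
    rw [← zpow_add]
    congr 1
    ring
  rw [h1, (shCross φ).map_mul, hfix, shCross_T_zpow_of_fix φ hφ _ _ hfix, add_zero]

variable (Γ)

/-- the chosen representative of the `T`-orbit of `x`. -/
def shRep (x : SL(2, ℤ) ⧸ Γ) : SL(2, ℤ) ⧸ Γ :=
  (Quotient.mk (MulAction.orbitRel (Subgroup.zpowers ModularGroup.T) (SL(2, ℤ) ⧸ Γ)) x).out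

theorem exists_zpow_smul_shRep (x : SL(2, ℤ) ⧸ Γ) :
    ∃ i : ℤ, ModularGroup.T ^ i • shRep Γ x = x := by
  have h : (MulAction.orbitRel (Subgroup.zpowers ModularGroup.T) (SL(2, ℤ) ⧸ Γ)).r
      (shRep Γ x) x := Quotient.mk_out (s := MulAction.orbitRel _ _) x
  rw [MulAction.orbitRel_apply] at h
  obtain ⟨⟨g, hg⟩, hgx⟩ := h
  obtain ⟨k, rfl⟩ := Subgroup.mem_zpowers_iff.mp hg
  refine ⟨-k, ?_⟩
  have h2 : ModularGroup.T ^ k • x = shRep Γ x := hgx
  rw [← h2, ← mul_smul, ← zpow_add]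
  simp

theorem shRep_T_smul (x : SL(2, ℤ) ⧸ Γ) : shRep Γ (ModularGroup.T • x) = shRep Γ x := by
  unfold shRep
  congr 1
  apply Quotient.sound
  show (MulAction.orbitRel (Subgroup.zpowers ModularGroup.T) (SL(2, ℤ) ⧸ Γ)).r _ _
  rw [MulAction.orbitRel_apply]
  exact ⟨⟨ModularGroup.T, Subgroup.mem_zpowers _⟩, rfl⟩

/-- the exponent: `T ^ shIdx x • shRep x = x`. -/
def shIdx (x : SL(2, ℤ) ⧸ Γ) : ℤ := (exists_zpow_smul_shRep Γ x).choose

theorem shIdx_spec (x : SL(2, ℤ) ⧸ Γ) : ModularGroup.T ^ shIdx Γ x • shRep Γ x = x :=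
  (exists_zpow_smul_shRep Γ x).choose_spec

variable {Γ}

/-- the primitive `w` of `d_φ T` along the orbits of `T`. -/
def shW (φ : Additive Γ →+ ℤ) (x : SL(2, ℤ) ⧸ Γ) : ℤ :=
  shCross φ (ModularGroup.T ^ shIdx Γ x) (shRep Γ x)

theorem shW_T_smul (φ : Additive Γ →+ ℤ) (hφ : φ ∈ parabolicHoms ℤ Γ ℤ)
    (x : SL(2, ℤ) ⧸ Γ) :
    shW φ (ModularGroup.T • x) - shW φ x = shCross φ ModularGroup.T x := by
  unfold shW
  have h1 := shIdx_spec Γ (ModularGroup.T • x)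
  rw [shRep_T_smul] at h1 ⊢
  have h2 := shIdx_spec Γ x
  have h3 : ModularGroup.T ^ shIdx Γ (ModularGroup.T • x) • shRep Γ x =
      ModularGroup.T ^ (1 + shIdx Γ x) • shRep Γ x := by
    rw [h1, zpow_one_add, mul_smul, h2]
  rw [shCross_T_zpow_congr φ hφ _ _ _ h3, zpow_one_add, (shCross φ).map_mul, h2]
  ring

/-- the normalised crossed homomorphism `d_φ - δ w`. -/
def shNorm (φ : Additive Γ →+ ℤ) : CrossedHom (SL(2, ℤ) ⧸ Γ) ℤ where
  toFun g x := shCross φ g x - (shW φ (g • x) - shW φ x)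
  map_mul' g h x := by
    rw [(shCross φ).map_mul, mul_smul]
    ring

theorem shNorm_apply (φ : Additive Γ →+ ℤ) (g : SL(2, ℤ)) (x : SL(2, ℤ) ⧸ Γ) :
    shNorm φ g x = shCross φ g x - (shW φ (g • x) - shW φ x) := rfl

theorem sh_out_one_mem : (Quotient.out ((1 : SL(2, ℤ)) : SL(2, ℤ) ⧸ Γ)) ∈ Γ := by
  have h : ((Quotient.out ((1 : SL(2, ℤ)) : SL(2, ℤ) ⧸ Γ) : SL(2, ℤ)) : SL(2, ℤ) ⧸ Γ) =
      ((1 : SL(2, ℤ)) : SL(2, ℤ) ⧸ Γ) := QuotientGroup.out_eq' _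
  rw [QuotientGroup.eq, mul_one] at h
  exact Γ.inv_mem_iff.mp h

theorem shNorm_ev (φ : Additive Γ →+ ℤ) : (shNorm φ).ev = φ := by
  refine AddMonoidHom.ext fun a => ?_
  obtain ⟨γ, rfl⟩ : ∃ γ : Γ, Additive.ofMul γ = a := ⟨Additive.toMul a, rfl⟩
  rw [CrossedHom.ev_apply, shNorm_apply]
  have hfix : (γ : SL(2, ℤ)) • ((1 : SL(2, ℤ)) : SL(2, ℤ) ⧸ Γ) =
      ((1 : SL(2, ℤ)) : SL(2, ℤ) ⧸ Γ) := by
    rw [MulAction.Quotient.smul_mk, QuotientGroup.eq]
    simp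
  rw [hfix, sub_self, sub_zero, shCross_apply]
  -- `shElt γ x₀ = r₀⁻¹ γ r₀`
  set r₀ : Γ := ⟨Quotient.out ((1 : SL(2, ℤ)) : SL(2, ℤ) ⧸ Γ), sh_out_one_mem⟩ with hr₀
  have h1 : shElt Γ (γ : SL(2, ℤ)) ((1 : SL(2, ℤ)) : SL(2, ℤ) ⧸ Γ) = r₀⁻¹ * γ * r₀ := by
    apply Subtype.ext
    rw [coe_shElt, hfix]
    rfl
  rw [h1, ofMul_mul, ofMul_mul, map_add, map_add, ofMul_inv, map_neg]
  ring

end Construction

/-- `Umat ^ 3 = -1`. -/
theorem sh_Umat_cube : Umat * (Umat * Umat) = -1 := by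
  unfold Umat
  apply Subtype.ext
  simp only [Matrix.SpecialLinearGroup.coe_mul, Matrix.SpecialLinearGroup.coe_neg,
    Matrix.SpecialLinearGroup.coe_one, ModularGroup.coe_T, ModularGroup.coe_S]
  ext i j
  fin_cases i <;> fin_cases j <;> simp [Matrix.mul_apply, Fin.sum_univ_two]

/-- `S * S = -1`. -/
theorem sh_S_mul_S : (ModularGroup.S : SL(2, ℤ)) * ModularGroup.S = -1 := by
  apply Subtype.ext
  simp only [Matrix.SpecialLinearGroup.coe_mul, Matrix.SpecialLinearGroup.coe_neg,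
    Matrix.SpecialLinearGroup.coe_one, ModularGroup.coe_S]
  ext i j
  fin_cases i <;> fin_cases j <;> simp [Matrix.mul_apply, Fin.sum_univ_two]

/-- **(SH2)** every parabolic homomorphism `Γ → ℤ` is induced by a normalised crossed
homomorphism. -/
theorem exists_crossedHom_of_homPar (Γ : Subgroup SL(2, ℤ)) [Γ.FiniteIndex]
    (hneg : (-1 : SL(2, ℤ)) ∈ Γ) (φ : Additive Γ →+ ℤ) (hφ : φ ∈ parabolicHoms ℤ Γ ℤ) :
    ∃ d : CrossedHom (SL(2, ℤ) ⧸ Γ) ℤ, d ModularGroup.T = 0 ∧ d (-1) = 0 ∧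
      d ModularGroup.S ∈ Kc (SL(2, ℤ) ⧸ Γ) ∧ d.ev = φ := by
  have hT : ∀ x, shNorm φ ModularGroup.T x = 0 := by
    intro x
    rw [shNorm_apply, shW_T_smul φ hφ, sub_self]
  have hneg' : ∀ x, shNorm φ (-1) x = 0 := fun x => (shNorm φ).map_neg_one hneg x
  refine ⟨shNorm φ, funext hT, funext hneg', ?_, shNorm_ev φ⟩
  rw [mem_Kc]
  refine ⟨fun x => ?_, fun x => ?_⟩
  · have h := (shNorm φ).map_mul ModularGroup.S ModularGroup.S x
    rw [sh_S_mul_S, hneg'] at h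
    omega
  · have hU : ∀ y, shNorm φ Umat y = shNorm φ ModularGroup.S y := by
      intro y
      show shNorm φ (ModularGroup.T * ModularGroup.S) y = _
      rw [(shNorm φ).map_mul, hT, zero_add]
    have h := (shNorm φ).map_mul Umat (Umat * Umat) x
    rw [sh_Umat_cube, hneg', (shNorm φ).map_mul, mul_smul, hU, hU, hU] at h
    omega

end Fermat.Agent.LPD
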