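/-
Cluster L / PD (helper17), work package (C3): the cup product of parabolic homomorphisms in the
Shapiro model: existence of primitives, the formula, biadditivity, antisymmetry.
-/
import Fermat.Agent.L.PD.CupDef
import Fermat.Agent.L.PD.Formula
import Fermat.Agent.L.PD.Present
import Fermat.Agent.L.PD.Shapiro

set_option autoImplicit false
set_option linter.unusedSectionVars false

noncomputable section

namespace Fermat.Agent.LPD

open scoped MatrixGroups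
open ModularGroup MulAction ModularCurve.Period

/-- The presentation of `SL(2, ℤ)` (M1, helper59). -/
theorem presentation : Presentation := fun _ _ s u hs hu => exists_hom_of_relations s u hs hu

section Ext

variable {X : Type*} [MulAction SL(2, ℤ) X] {A : Type*} [AddCommGroup A]

/-- A crossed homomorphism is determined by its values at `S` and `T`. -/
theorem CrossedHom.ext_of_S_T {d₁ d₂ : CrossedHom X A} (hS : d₁ S = d₂ S) (hT : d₁ T = d₂ T) :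
    d₁ = d₂ := by
  let H : Subgroup SL(2, ℤ) :=
    { carrier := {g | d₁ g = d₂ g}
      one_mem' := by
        funext x
        rw [d₁.map_one, d₂.map_one]
      mul_mem' := by
        intro a b ha hb
        funext x
        rw [d₁.map_mul, d₂.map_mul]
        rw [show d₁ a = d₂ a from ha, show d₁ b = d₂ b from hb]
      inv_mem' := by
        intro a ha
        funext x
        rw [d₁.map_inv, d₂.map_inv, show d₁ a = d₂ a from ha] }
  have hH : H = ⊤ := by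
    rw [eq_top_iff, ← SpecialLinearGroup.SL2Z_generators, Subgroup.closure_le]
    rintro g (rfl | rfl)
    · exact hS
    · exact hT
  apply CrossedHom.ext
  intro g x
  have hg : g ∈ H := by rw [hH]; trivial
  exact congrFun hg x

end Ext

variable (Γ : Subgroup SL(2, ℤ)) [Γ.FiniteIndex]

/-- **(C3a)** the cup product of two parabolic homomorphisms has a primitive. -/
theorem exists_isEta (hneg : (-1 : SL(2, ℤ)) ∈ Γ) {φ ψ : Additive Γ →+ ℤ}
    (hφ : φ ∈ parabolicHoms ℤ Γ ℤ) (hψ : ψ ∈ parabolicHoms ℤ Γ ℤ) :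
    ∃ η : Γ → ℤ, IsEta φ ψ η := by
  classical
  let _ : Fintype (SL(2, ℤ) ⧸ Γ) := Fintype.ofFinite _
  obtain ⟨d, hT, -, hS, rfl⟩ := exists_crossedHom_of_homPar Γ hneg φ hφ
  obtain ⟨d', hT', -, hS', rfl⟩ := exists_crossedHom_of_homPar Γ hneg ψ hψ
  obtain ⟨L⟩ := exists_heisLift presentation (sh_neg_one_smul hneg) hS hS'
  have e1 : L.d = d := CrossedHom.ext_of_S_T L.d_S (by rw [L.d_T, hT])
  have e2 : L.d' = d' := CrossedHom.ext_of_S_T L.d'_S (by rw [L.d'_T, hT'])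
  refine ⟨L.eta Γ, ?_⟩
  have := L.isEta Γ
  rwa [e1, e2] at this

/-- **(C3b)** the formula for the cup product in the Shapiro model. -/
theorem cup_formula [Fintype (SL(2, ℤ) ⧸ Γ)] (hneg : (-1 : SL(2, ℤ)) ∈ Γ)
    (d d' : CrossedHom (SL(2, ℤ) ⧸ Γ) ℤ) (hT : d T = 0) (hS : d S ∈ Kc (SL(2, ℤ) ⧸ Γ))
    (hT' : d' T = 0) (hS' : d' S ∈ Kc (SL(2, ℤ) ⧸ Γ)) :
    6 * cup Γ d.ev d'.ev = - inner (d S) (d' S) - 2 * inner (fun x => d S (Umat • x)) (d' S) := by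
  obtain ⟨L⟩ := exists_heisLift presentation (sh_neg_one_smul hneg) hS hS'
  have e1 : L.d = d := CrossedHom.ext_of_S_T L.d_S (by rw [L.d_T, hT])
  have e2 : L.d' = d' := CrossedHom.ext_of_S_T L.d'_S (by rw [L.d'_T, hT'])
  have h1 := L.isEta Γ
  rw [e1, e2] at h1
  rw [cup_eq_cuspSum Γ h1]
  exact L.cuspSum_eta Γ

/-- **(C3c)** additivity in the first variable. -/
theorem cup_add_left (hneg : (-1 : SL(2, ℤ)) ∈ Γ) {φ₁ φ₂ ψ : Additive Γ →+ ℤ}
    (hφ₁ : φ₁ ∈ parabolicHoms ℤ Γ ℤ) (hφ₂ : φ₂ ∈ parabolicHoms ℤ Γ ℤ)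
    (hψ : ψ ∈ parabolicHoms ℤ Γ ℤ) : cup Γ (φ₁ + φ₂) ψ = cup Γ φ₁ ψ + cup Γ φ₂ ψ := by
  obtain ⟨η₁, h₁⟩ := exists_isEta Γ hneg hφ₁ hψ
  obtain ⟨η₂, h₂⟩ := exists_isEta Γ hneg hφ₂ hψ
  have h : IsEta (φ₁ + φ₂) ψ (η₁ + η₂) := by
    intro a b
    simp only [Pi.add_apply, AddMonoidHom.add_apply]
    rw [h₁ a b, h₂ a b]
    ring
  rw [cup_eq_cuspSum Γ h, cup_eq_cuspSum Γ h₁, cup_eq_cuspSum Γ h₂, cuspSum_add]

/-- **(C3d)** antisymmetry. -/
theorem cup_antisymm (hneg : (-1 : SL(2, ℤ)) ∈ Γ) {φ ψ : Additive Γ →+ ℤ}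
    (hφ : φ ∈ parabolicHoms ℤ Γ ℤ) (hψ : ψ ∈ parabolicHoms ℤ Γ ℤ) :
    cup Γ φ ψ = - cup Γ ψ φ := by
  obtain ⟨η, h⟩ := exists_isEta Γ hneg hψ hφ
  have h' : IsEta φ ψ (fun γ => φ (Additive.ofMul γ) * ψ (Additive.ofMul γ) - η γ) := by
    intro a b
    simp only [ofMul_mul, map_add]
    rw [h a b]
    ring
  rw [cup_eq_cuspSum Γ h', cup_eq_cuspSum Γ h, ← cuspSum_neg]
  refine cuspSum_congr Γ fun q => ?_
  have hq : φ (Additive.ofMul (cuspElt Γ q)) = 0 := by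
    apply hφ
    have : (((cuspElt Γ q : Γ) : SL(2, ℤ)) : Matrix (Fin 2) (Fin 2) ℤ).trace = 2 := by
      have := sh_trace_conj_T_zpow (Quotient.out q)
        ((Function.minimalPeriod (fun x => ModularGroup.T • x) q : ℕ) : ℤ)
      rw [zpow_natCast] at this
      exact this
    rw [this]; norm_num
  simp only [Pi.neg_apply, hq, zero_mul, zero_sub]

/-- additivity in the second variable. -/
theorem cup_add_right (hneg : (-1 : SL(2, ℤ)) ∈ Γ) {φ ψ₁ ψ₂ : Additive Γ →+ ℤ}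
    (hφ : φ ∈ parabolicHoms ℤ Γ ℤ) (hψ₁ : ψ₁ ∈ parabolicHoms ℤ Γ ℤ)
    (hψ₂ : ψ₂ ∈ parabolicHoms ℤ Γ ℤ) : cup Γ φ (ψ₁ + ψ₂) = cup Γ φ ψ₁ + cup Γ φ ψ₂ := by
  rw [cup_antisymm Γ hneg hφ (add_mem hψ₁ hψ₂), cup_add_left Γ hneg hψ₁ hψ₂ hφ,
    cup_antisymm Γ hneg hφ hψ₁, cup_antisymm Γ hneg hφ hψ₂]
  ring

end Fermat.Agent.LPD
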