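/-
Cluster L / PD, work package (M5): nondegeneracy modulo `p`, pure linear algebra on a finite set
with two permutations.  OWNER: helper69 (statement fixed by helper17, see NOTES/blueprint-L-PD.md).

Setting: `σ, τ` permutations of a finite set `X`, `σ² = 1`, `τ³ = 1`, `⟨σ, τ⟩` transitive.
`Kc = {m : X → ℤ | m + m ∘ σ = 0, m + m ∘ τ + m ∘ τ² = 0}`.

Proof (all over `ℤ`, every prime `p`, also `p = 2, 3`):
 (α) if `p ∣ ⟨m', v⟩` for all `m' ∈ Kc` then `v = a + b + p ω` with `a ∘ σ = a`, `b ∘ τ = b`.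
     [`A = ker (1 + σ*)`, `B = ker (1 + τ* + τ*²)`, `Kc = A ∩ B`; `A + B = ker (sum)` by
      transitivity, so the image of `A ∩ B` in `𝔽_p^X` is `Ā ∩ B̄` (images); over `𝔽_p`:
      `(Ā ∩ B̄)^⊥ = Ā^⊥ + B̄^⊥` (`Subspace.dualAnnihilator_inf_eq`),
      `Ā^⊥` = functions constant on the orbits of `σ`, `B̄^⊥` = constant on the orbits of `τ`.]
 (β) `μ₁ + μ₂ = a + b + p ω`; `w := μ₁ - a` satisfies `w - w ∘ σ = m` and `w ∘ τ - w ≡ -m`, hence
     `w ∘ τ ∘ σ ≡ w  mod p`; choose `w₀ ≡ w mod p` with `w₀ ∘ τ ∘ σ = w₀`; then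
     `m - (w₀ - w₀ ∘ σ) ∈ p W ∩ Kc = p Kc`.
-/
import Mathlib

set_option autoImplicit false

namespace Fermat.Agent.LPD

section NondegPermAux

variable {X : Type*}

/-- `A = ker (1 + σ^*)` over `ℤ`. -/
def npA (σ : Equiv.Perm X) : Submodule ℤ (X → ℤ) where
  carrier := {f | ∀ x, f x + f (σ x) = 0}
  add_mem' := by
    intro f g hf hg x
    have h1 := hf x
    have h2 := hg x
    simp only [Pi.add_apply]
    linarith
  zero_mem' := by
    intro x
    simp
  smul_mem' := by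
    intro c f hf x
    have h1 := hf x
    simp only [Pi.smul_apply, smul_eq_mul]
    linear_combination c * h1

/-- `B = ker (1 + τ^* + τ^*²)` over `ℤ`. -/
def npB (τ : Equiv.Perm X) : Submodule ℤ (X → ℤ) where
  carrier := {f | ∀ x, f x + f (τ x) + f (τ (τ x)) = 0}
  add_mem' := by
    intro f g hf hg x
    have h1 := hf x
    have h2 := hg x
    simp only [Pi.add_apply]
    linarith
  zero_mem' := by
    intro x
    simp
  smul_mem' := by
    intro c f hf x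
    have h1 := hf x
    simp only [Pi.smul_apply, smul_eq_mul]
    linear_combination c * h1

lemma mem_npA {σ : Equiv.Perm X} {f : X → ℤ} : f ∈ npA σ ↔ ∀ x, f x + f (σ x) = 0 := Iff.rfl

lemma mem_npB {τ : Equiv.Perm X} {f : X → ℤ} :
    f ∈ npB τ ↔ ∀ x, f x + f (τ x) + f (τ (τ x)) = 0 := Iff.rfl

lemma np_single_sub_mem_npA [DecidableEq X] (σ : Equiv.Perm X) (hσ : ∀ x, σ (σ x) = x) (x : X) :
    (Pi.single x 1 - Pi.single (σ x) 1 : X → ℤ) ∈ npA σ := by
  intro y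
  have e1 : (σ y = x) ↔ (y = σ x) := by
    constructor
    · intro h; rw [← h, hσ]
    · intro h; rw [h, hσ]
  have e2 : (σ y = σ x) ↔ (y = x) := σ.injective.eq_iff
  simp only [Pi.sub_apply, Pi.single_apply, e1, e2]
  ring

lemma np_single_sub_mem_npB [DecidableEq X] (τ : Equiv.Perm X) (hτ : ∀ x, τ (τ (τ x)) = x)
    (x : X) : (Pi.single x 1 - Pi.single (τ x) 1 : X → ℤ) ∈ npB τ := by
  intro y
  have e1 : (y = τ x) ↔ (τ (τ y) = x) := by
    constructor
    · intro h; rw [h, hτ]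
    · intro h; rw [← h, hτ]
  have e2 : (τ y = τ x) ↔ (y = x) := τ.injective.eq_iff
  have e3 : (τ (τ y) = τ x) ↔ (τ y = x) := τ.injective.eq_iff
  simp only [Pi.sub_apply, Pi.single_apply, e1, e2, e3]
  ring

lemma np_single_sub_mem_sup [DecidableEq X] (σ τ : Equiv.Perm X) (hσ : ∀ x, σ (σ x) = x)
    (hτ : ∀ x, τ (τ (τ x)) = x) (g : Equiv.Perm X)
    (hg : g ∈ Subgroup.closure ({σ, τ} : Set (Equiv.Perm X))) :
    ∀ x, (Pi.single x 1 - Pi.single (g x) 1 : X → ℤ) ∈ npA σ ⊔ npB τ := by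
  induction hg using Subgroup.closure_induction with
  | mem g hg =>
    intro x
    rcases hg with rfl | hg
    · exact Submodule.mem_sup_left (np_single_sub_mem_npA g hσ x)
    · rw [Set.mem_singleton_iff] at hg
      subst hg
      exact Submodule.mem_sup_right (np_single_sub_mem_npB g hτ x)
  | one =>
    intro x
    simp
  | mul g h _ _ ihg ihh =>
    intro x
    have h1 := ihh x
    have h2 := ihg (h x)
    have := Submodule.add_mem _ h1 h2
    simpa [Equiv.Perm.mul_apply] using this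
  | inv g _ ihg =>
    intro x
    have h1 := ihg (g⁻¹ x)
    have h2 := Submodule.neg_mem _ h1
    simpa using h2

lemma np_mem_sup_of_sum_eq_zero [Fintype X] (σ τ : Equiv.Perm X) (hσ : ∀ x, σ (σ x) = x)
    (hτ : ∀ x, τ (τ (τ x)) = x)
    (htr : ∀ x y : X, ∃ g ∈ Subgroup.closure ({σ, τ} : Set (Equiv.Perm X)), g x = y)
    (d : X → ℤ) (hd : ∑ x, d x = 0) : d ∈ npA σ ⊔ npB τ := by
  classical
  rcases isEmpty_or_nonempty X with hX | ⟨⟨x₀⟩⟩
  · have : d = 0 := by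
      funext x
      exact (hX.false x).elim
    rw [this]
    exact Submodule.zero_mem _
  · have key : d = ∑ x, d x • (Pi.single x 1 - Pi.single x₀ 1 : X → ℤ) := by
      funext y
      simp only [Finset.sum_apply, Pi.smul_apply, Pi.sub_apply, Pi.single_apply, smul_eq_mul,
        mul_sub, Finset.sum_sub_distrib, mul_ite, mul_one, mul_zero]
      rw [Finset.sum_ite_eq Finset.univ y d]
      simp only [Finset.mem_univ, if_true]
      by_cases hy : y = x₀
      · subst hy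
        simp [hd]
      · simp [hy]
    rw [key]
    refine Submodule.sum_mem _ fun x _ => Submodule.smul_mem _ _ ?_
    obtain ⟨g, hg, hgx⟩ := htr x x₀
    have := np_single_sub_mem_sup σ τ hσ hτ g hg x
    rwa [hgx] at this

lemma np_sum_eq_zero_of_mem_npA [Fintype X] (σ : Equiv.Perm X) {f : X → ℤ} (hf : f ∈ npA σ) :
    ∑ x, f x = 0 := by
  have h1 : ∑ x, (f x + f (σ x)) = 0 := Finset.sum_eq_zero fun x _ => hf x
  rw [Finset.sum_add_distrib, Equiv.sum_comp σ f] at h1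
  omega

lemma np_sum_eq_zero_of_mem_npB [Fintype X] (τ : Equiv.Perm X) {f : X → ℤ} (hf : f ∈ npB τ) :
    ∑ x, f x = 0 := by
  have h1 : ∑ x, (f x + f (τ x) + f (τ (τ x))) = 0 := Finset.sum_eq_zero fun x _ => hf x
  have e2 : ∑ x, f (τ (τ x)) = ∑ x, f x := by
    rw [Equiv.sum_comp τ (fun x => f (τ x)), Equiv.sum_comp τ f]
  rw [Finset.sum_add_distrib, Finset.sum_add_distrib, Equiv.sum_comp τ f, e2] at h1
  omega

/-- Image of a `ℤ`-submodule of `X → ℤ` in `X → ZMod p`, as a subspace. -/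
def npImage (p : ℕ) [Fact p.Prime] (A : Submodule ℤ (X → ℤ)) :
    Submodule (ZMod p) (X → ZMod p) where
  carrier := {f | ∃ a ∈ A, ∀ x, ((a x : ℤ) : ZMod p) = f x}
  add_mem' := by
    rintro f g ⟨a, ha, hfa⟩ ⟨b, hb, hgb⟩
    refine ⟨a + b, A.add_mem ha hb, fun x => ?_⟩
    simp only [Pi.add_apply, Int.cast_add, hfa x, hgb x]
  zero_mem' := ⟨0, A.zero_mem, fun x => by simp⟩
  smul_mem' := by
    rintro c f ⟨a, ha, hfa⟩
    refine ⟨((c.val : ℕ) : ℤ) • a, A.smul_mem _ ha, fun x => ?_⟩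
    simp only [Pi.smul_apply, smul_eq_mul, Int.cast_mul, Int.cast_natCast, ZMod.natCast_zmod_val,
      hfa x]

lemma mem_npImage {p : ℕ} [Fact p.Prime] {A : Submodule ℤ (X → ℤ)} {f : X → ZMod p} :
    f ∈ npImage p A ↔ ∃ a ∈ A, ∀ x, ((a x : ℤ) : ZMod p) = f x := Iff.rfl

/-- Elements of `Ā ⊓ B̄` lift to `A ⊓ B` (uses that `A + B = ker (sum)` is saturated). -/
lemma np_lift_inf [Fintype X] (σ τ : Equiv.Perm X) (hσ : ∀ x, σ (σ x) = x)
    (hτ : ∀ x, τ (τ (τ x)) = x)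
    (htr : ∀ x y : X, ∃ g ∈ Subgroup.closure ({σ, τ} : Set (Equiv.Perm X)), g x = y)
    (p : ℕ) [Fact p.Prime] (f : X → ZMod p)
    (hf : f ∈ npImage p (npA σ) ⊓ npImage p (npB τ)) :
    ∃ m' : X → ℤ, m' ∈ npA σ ∧ m' ∈ npB τ ∧ ∀ x, ((m' x : ℤ) : ZMod p) = f x := by
  obtain ⟨⟨a, ha, hfa⟩, ⟨b, hb, hfb⟩⟩ := hf
  have hp0 : (p : ℤ) ≠ 0 := by exact_mod_cast (Fact.out : p.Prime).ne_zero
  have hdvd : ∀ x, (p : ℤ) ∣ a x - b x := by
    intro x
    rw [← ZMod.intCast_zmod_eq_zero_iff_dvd]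
    simp only [Int.cast_sub, hfa x, hfb x, sub_self]
  choose d hd using hdvd
  have hsum : ∑ x, d x = 0 := by
    have h1 : (p : ℤ) * ∑ x, d x = 0 := by
      rw [Finset.mul_sum]
      have : ∀ x, (p : ℤ) * d x = a x - b x := fun x => (hd x).symm
      simp only [this, Finset.sum_sub_distrib, np_sum_eq_zero_of_mem_npA σ ha,
        np_sum_eq_zero_of_mem_npB τ hb, sub_self]
    rcases mul_eq_zero.mp h1 with h | h
    · exact absurd h hp0
    · exact h
  obtain ⟨a', ha', b', hb', hab⟩ :=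
    Submodule.mem_sup.mp (np_mem_sup_of_sum_eq_zero σ τ hσ hτ htr d hsum)
  refine ⟨a - (p : ℤ) • a', (npA σ).sub_mem ha ((npA σ).smul_mem _ ha'), ?_, fun x => ?_⟩
  · have e : a - (p : ℤ) • a' = b + (p : ℤ) • b' := by
      funext x
      have h1 := hd x
      have h2 := congrFun hab x
      simp only [Pi.add_apply] at h2
      simp only [Pi.sub_apply, Pi.add_apply, Pi.smul_apply, smul_eq_mul]
      rw [← h2] at h1
      linear_combination h1
    rw [e]
    exact (npB τ).add_mem hb ((npB τ).smul_mem _ hb')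
  · simp only [Pi.sub_apply, Pi.smul_apply, smul_eq_mul, Int.cast_sub, Int.cast_mul,
      Int.cast_natCast, ZMod.natCast_self, zero_mul, sub_zero, hfa x]

/-- **(α)** -/
lemma np_alpha [Fintype X] (σ τ : Equiv.Perm X) (hσ : ∀ x, σ (σ x) = x)
    (hτ : ∀ x, τ (τ (τ x)) = x)
    (htr : ∀ x y : X, ∃ g ∈ Subgroup.closure ({σ, τ} : Set (Equiv.Perm X)), g x = y)
    (p : ℕ) [Fact p.Prime] (v : X → ℤ)
    (h : ∀ m' : X → ℤ, m' ∈ npA σ → m' ∈ npB τ → (p : ℤ) ∣ ∑ x, m' x * v x) :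
    ∃ a b ω : X → ℤ, (∀ x, a (σ x) = a x) ∧ (∀ x, b (τ x) = b x) ∧
      ∀ x, v x = a x + b x + p * ω x := by
  classical
  -- the functional `⟨·, v⟩` on `X → ZMod p`
  let φ : Module.Dual (ZMod p) (X → ZMod p) :=
    ∑ x, ((v x : ℤ) : ZMod p) • (LinearMap.proj x : (X → ZMod p) →ₗ[ZMod p] ZMod p)
  have hφ : ∀ f : X → ZMod p, φ f = ∑ x, ((v x : ℤ) : ZMod p) * f x := by
    intro f
    simp only [φ, LinearMap.sum_apply, LinearMap.smul_apply, LinearMap.proj_apply, smul_eq_mul]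
  have hφmem : φ ∈ (npImage p (npA σ) ⊓ npImage p (npB τ)).dualAnnihilator := by
    rw [Submodule.mem_dualAnnihilator]
    intro f hf
    obtain ⟨m', hA, hB, hm'⟩ := np_lift_inf σ τ hσ hτ htr p f hf
    rw [hφ]
    have h1 := h m' hA hB
    rw [← ZMod.intCast_zmod_eq_zero_iff_dvd] at h1
    rw [← h1]
    simp only [Int.cast_sum, Int.cast_mul, hm']
    exact Finset.sum_congr rfl fun x _ => mul_comm _ _
  rw [Subspace.dualAnnihilator_inf_eq, Submodule.mem_sup] at hφmem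
  obtain ⟨φ₁, hφ₁, φ₂, hφ₂, hsum⟩ := hφmem
  rw [Submodule.mem_dualAnnihilator] at hφ₁ hφ₂
  -- the functions representing `φ₁`, `φ₂`
  set a₁ : X → ZMod p := fun x => φ₁ (Pi.single x 1) with ha₁
  set b₁ : X → ZMod p := fun x => φ₂ (Pi.single x 1) with hb₁
  have hred : ∀ (y z : X), (fun x => (((Pi.single y 1 - Pi.single z 1 : X → ℤ) x : ℤ) : ZMod p))
      = (Pi.single y 1 - Pi.single z 1 : X → ZMod p) := by
    intro y z
    funext x
    simp only [Pi.sub_apply, Pi.single_apply, Int.cast_sub]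
    split_ifs <;> simp
  have ha₁σ : ∀ x, a₁ (σ x) = a₁ x := by
    intro x
    have hmem : (Pi.single x 1 - Pi.single (σ x) 1 : X → ZMod p) ∈ npImage p (npA σ) :=
      ⟨_, np_single_sub_mem_npA σ hσ x, fun y => congrFun (hred x (σ x)) y⟩
    have := hφ₁ _ hmem
    rw [map_sub, sub_eq_zero] at this
    exact this.symm
  have hb₁τ : ∀ x, b₁ (τ x) = b₁ x := by
    intro x
    have hmem : (Pi.single x 1 - Pi.single (τ x) 1 : X → ZMod p) ∈ npImage p (npB τ) :=
      ⟨_, np_single_sub_mem_npB τ hτ x, fun y => congrFun (hred x (τ x)) y⟩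
    have := hφ₂ _ hmem
    rw [map_sub, sub_eq_zero] at this
    exact this.symm
  have hv : ∀ x, ((v x : ℤ) : ZMod p) = a₁ x + b₁ x := by
    intro x
    have h1 : φ (Pi.single x 1) = ((v x : ℤ) : ZMod p) := by
      rw [hφ]
      simp [Pi.single_apply]
    rw [← h1, ← hsum]
    rfl
  -- lift
  have hdvd : ∀ x, (p : ℤ) ∣ v x - ((a₁ x).val : ℤ) - ((b₁ x).val : ℤ) := by
    intro x
    rw [← ZMod.intCast_zmod_eq_zero_iff_dvd]
    simp only [Int.cast_sub, Int.cast_natCast, ZMod.natCast_zmod_val, hv x]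
    ring
  choose ω hω using hdvd
  refine ⟨fun x => ((a₁ x).val : ℤ), fun x => ((b₁ x).val : ℤ), ω, fun x => ?_, fun x => ?_,
    fun x => ?_⟩
  · simp only [ha₁σ x]
  · simp only [hb₁τ x]
  · have := hω x
    simp only
    linarith

end NondegPermAux

/-- **(M5)** nondegeneracy modulo `p` of the pairing `(m', m) ↦ ⟨m', μ₁ + μ₂⟩` on `Kc / Eis`. -/
theorem nondeg_perm {X : Type*} [Fintype X] (σ τ : Equiv.Perm X)
    (hσ : ∀ x, σ (σ x) = x) (hτ : ∀ x, τ (τ (τ x)) = x)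
    (htr : ∀ x y : X, ∃ g ∈ Subgroup.closure ({σ, τ} : Set (Equiv.Perm X)), g x = y)
    (p : ℕ) (hp : p.Prime)
    (m μ₁ μ₂ : X → ℤ)
    (h1 : ∀ x, μ₁ x - μ₁ (σ x) = m x) (h2 : ∀ x, μ₂ (τ x) - μ₂ x = m x)
    (h : ∀ m' : X → ℤ, (∀ x, m' x + m' (σ x) = 0) → (∀ x, m' x + m' (τ x) + m' (τ (τ x)) = 0) →
      (p : ℤ) ∣ ∑ x, m' x * (μ₁ x + μ₂ x)) :
    ∃ w k : X → ℤ, (∀ x, w (τ (σ x)) = w x) ∧ (∀ x, k x + k (σ x) = 0) ∧
      (∀ x, k x + k (τ x) + k (τ (τ x)) = 0) ∧ ∀ x, m x = w (σ x) - w x + p * k x := by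
  have : Fact p.Prime := ⟨hp⟩
  have hp0 : (p : ℤ) ≠ 0 := by exact_mod_cast hp.ne_zero
  obtain ⟨a, b, ω, haσ, hbτ, hv⟩ :=
    np_alpha σ τ hσ hτ htr p (fun x => μ₁ x + μ₂ x) (fun m' hA hB => h m' hA hB)
  -- `w := μ₁ - a`
  set w : X → ℤ := fun x => μ₁ x - a x with hw
  have hwσ : ∀ x, w x - w (σ x) = m x := by
    intro x
    simp only [hw, haσ x]
    linarith [h1 x]
  have hwτ : ∀ x, w (τ x) - w (σ x) = p * (ω (τ x) - ω x) := by
    intro x
    have e1 := hv x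
    have e2 := hv (τ x)
    have e3 := h2 x
    have e4 := hwσ x
    have e5 := hbτ x
    simp only [hw] at e4 ⊢
    linear_combination e2 - e1 - e3 + e4 + e5
  -- `w ∘ τ ∘ σ ≡ w`
  have hwg : ∀ x, ((w (τ (σ x)) : ℤ) : ZMod p) = ((w x : ℤ) : ZMod p) := by
    intro x
    have := hwτ (σ x)
    rw [hσ x] at this
    have h3 : (p : ℤ) ∣ w (τ (σ x)) - w x := ⟨_, this⟩
    rw [← ZMod.intCast_zmod_eq_zero_iff_dvd, Int.cast_sub, sub_eq_zero] at h3
    exact h3
  set w₀ : X → ℤ := fun x => ((((w x : ℤ) : ZMod p)).val : ℤ) with hw₀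
  have hw₀g : ∀ x, w₀ (τ (σ x)) = w₀ x := by
    intro x
    simp only [hw₀, hwg x]
  have hw₀τ : ∀ x, w₀ (τ x) = w₀ (σ x) := by
    intro x
    have := hw₀g (σ x)
    rwa [hσ x] at this
  have hdvd : ∀ x, (p : ℤ) ∣ w x - w₀ x := by
    intro x
    rw [← ZMod.intCast_zmod_eq_zero_iff_dvd]
    simp only [hw₀, Int.cast_sub, Int.cast_natCast, ZMod.natCast_zmod_val, sub_self]
  choose u hu using hdvd
  have hm : ∀ x, m x = (-w₀) (σ x) - (-w₀) x + p * (u x - u (σ x)) := by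
    intro x
    have e1 := hwσ x
    have e2 := hu x
    have e3 := hu (σ x)
    simp only [Pi.neg_apply]
    linear_combination -e1 + e2 - e3
  have hmB : ∀ x, m x + m (τ x) + m (τ (τ x)) = 0 := by
    intro x
    have e1 := h2 x
    have e2 := h2 (τ x)
    have e3 := h2 (τ (τ x))
    rw [hτ x] at e3
    linarith
  refine ⟨-w₀, fun x => u x - u (σ x), fun x => ?_, fun x => ?_, fun x => ?_, hm⟩
  · simp only [Pi.neg_apply, hw₀g x]
  · simp only [hσ x]
    ring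
  · have e0 := hmB x
    have e1 := hm x
    have e2 := hm (τ x)
    have e3 := hm (τ (τ x))
    have f1 := hw₀τ x
    have f2 := hw₀τ (τ x)
    have f3 := hw₀τ (τ (τ x))
    rw [hτ x] at f3
    simp only [Pi.neg_apply] at e1 e2 e3
    have key : (p : ℤ) * ((u x - u (σ x)) + (u (τ x) - u (σ (τ x))) +
        (u (τ (τ x)) - u (σ (τ (τ x))))) = 0 := by
      linear_combination e0 - e1 - e2 - e3 - f1 - f2 - f3
    rcases mul_eq_zero.mp key with h | h
    · exact absurd h hp0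
    · exact h

end Fermat.Agent.LPD
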