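/-
Cluster L / PD, work package (C4): nondegeneracy of the cup product modulo every prime.
OWNER: helper69 (statement fixed by helper17, see NOTES/blueprint-L-PD.md).

Proof.  `X = G ⧸ Γ`, `σ = toPerm S`, `τ = toPerm Umat` (`σ² = τ³ = 1` since `-1 ∈ Γ`;
`τ (σ x) = T • x`: `U_smul_S_smul` in Heis.lean; `⟨σ, τ⟩` transitive since `S, T` generate).
 * `φ = d.ev`, `d T = 0`, `m := d S ∈ Kc X`   (`exists_crossedHom_of_homPar`).
 * choose `μ₁, μ₂` with `μ₁ - μ₁∘σ = m`, `μ₂∘τ - μ₂ = m` (orbit by orbit).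
 * for `m' ∈ Kc X`: `exists_heisLift presentation _ hm' hm` gives a crossed hom `d'` with `d' S = m'`,
   `d' T = 0`; `ψ := d'.ev` is parabolic (`CrossedHom.ev_mem_parabolicHoms`);
   `p ∣ cup φ ψ = - cup ψ φ` and `cup_formula`:  `6 cup ψ φ = -⟨m', m⟩ - 2⟨m'∘U, m⟩ = -6 ⟨m', μ₁ + μ₂⟩`
   (elementary: `⟨m', m⟩ = 2⟨m', μ₁⟩`; with `A = ⟨m', μ₂⟩`, `B = ⟨m'∘U, μ₂⟩`: `⟨m', m⟩ = -2A - B`,
   `⟨m'∘U, m⟩ = A - B`).  Hence `p ∣ ⟨m', μ₁ + μ₂⟩`.
 * `nondeg_perm` gives `w, k`: `m = w∘σ - w + p k`, `w∘T = w`, `k ∈ Kc`.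
 * `d = δw + p • d_k` by `CrossedHom.ext_of_S_T` (`δw g x = w (g • x) - w x`, `d_k` from
   `exists_heisLift` for `k`), so `φ = ev d = p • ev d_k`  (`ev (δw) = 0`).
-/
import Fermat.Agent.L.PD.CupShapiro
import Fermat.Agent.L.PD.LinAlg

set_option autoImplicit false

noncomputable section

namespace Fermat.Agent.LPD

open scoped MatrixGroups
open ModularGroup MulAction ModularCurve.Period

section NondegAux

/-- Solving `h - h ∘ σ = m` for an involution `σ` and `m` with `m + m ∘ σ = 0`. -/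
theorem exists_sol_two_anti {X : Type} [Finite X] (σ : Equiv.Perm X) (hσ : ∀ x, σ (σ x) = x)
    (m : X → ℤ) (hm : ∀ x, m x + m (σ x) = 0) :
    ∃ h : X → ℤ, ∀ x, h x - h (σ x) = m x := by
  obtain ⟨n, ⟨e⟩⟩ := Finite.exists_equiv_fin X
  set ι : X → ℕ := fun x => (e x : ℕ) with hι
  have hinj : ∀ x y, ι x = ι y → x = y := fun x y h => e.injective (Fin.ext h)
  refine ⟨fun x => if ι x < ι (σ x) then m x else 0, fun x => ?_⟩
  by_cases hx : σ x = x
  · have h0 : m x = 0 := by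
      have := hm x
      rw [hx] at this
      omega
    simp only [hx, lt_irrefl, if_false, sub_self, h0]
  · have hne : ι (σ x) ≠ ι x := fun h => hx (hinj _ _ h)
    have h1 := hm x
    simp only [hσ]
    rcases lt_or_gt_of_ne hne with h | h
    · rw [if_neg (not_lt.mpr h.le), if_pos h]
      omega
    · rw [if_pos h, if_neg (not_lt.mpr h.le)]
      omega

/-- Solving `h ∘ τ - h = m` for a permutation `τ` of order `3` and `m` with
`m + m ∘ τ + m ∘ τ² = 0`. -/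
theorem exists_sol_three_anti {X : Type} [Finite X] (τ : Equiv.Perm X)
    (hτ : ∀ x, τ (τ (τ x)) = x) (m : X → ℤ) (hm : ∀ x, m x + m (τ x) + m (τ (τ x)) = 0) :
    ∃ h : X → ℤ, ∀ x, h (τ x) - h x = m x := by
  obtain ⟨n, ⟨e⟩⟩ := Finite.exists_equiv_fin X
  set ι : X → ℕ := fun x => (e x : ℕ) with hι
  have hinj : ∀ x y, ι x = ι y → x = y := fun x y h => e.injective (Fin.ext h)
  -- `x` is the minimum of its orbit
  refine ⟨fun x => if ι x < ι (τ x) ∧ ι x < ι (τ (τ x)) then 0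
    else if ι (τ (τ x)) < ι x ∧ ι (τ (τ x)) < ι (τ x) then m (τ (τ x))
    else if ι (τ x) < ι x ∧ ι (τ x) < ι (τ (τ x)) then m (τ x) + m (τ (τ x)) else 0, fun x => ?_⟩
  by_cases hx : τ x = x
  · have h0 : m x = 0 := by
      have := hm x
      rw [hx, hx] at this
      omega
    simp only [hx, sub_self, h0]
  · have h1 : ι (τ x) ≠ ι x := fun h => hx (hinj _ _ h)
    have h2 : ι (τ (τ x)) ≠ ι (τ x) := fun h => hx (by
      have := hinj _ _ h
      have h3 := congrArg τ this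
      rw [hτ] at h3
      have h4 := congrArg τ h3
      rw [hτ] at h4
      exact h4)
    have h3 : ι (τ (τ x)) ≠ ι x := fun h => hx (by
      have := hinj _ _ h
      have h3 := congrArg τ this
      rw [hτ] at h3
      exact h3.symm)
    have e1 := hm x
    have e2 := hm (τ x)
    rw [hτ] at e2
    simp only [hτ]
    by_cases c1 : ι x < ι (τ x) <;> by_cases c2 : ι x < ι (τ (τ x)) <;>
      by_cases c3 : ι (τ x) < ι (τ (τ x)) <;> simp [c1, c2, c3] <;> omega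

variable {X : Type} [Fintype X] [MulAction SL(2, ℤ) X]

/-- the coboundary of a function on `X`. -/
def cobCross (w : X → ℤ) (p : ℤ) (d : CrossedHom X ℤ) : CrossedHom X ℤ where
  toFun g x := w (g • x) - w x + p * d g x
  map_mul' g h x := by
    rw [d.map_mul, mul_smul]
    ring

omit [Fintype X] in
theorem cobCross_apply (w : X → ℤ) (p : ℤ) (d : CrossedHom X ℤ) (g : SL(2, ℤ)) (x : X) :
    cobCross w p d g x = w (g • x) - w x + p * d g x := rfl

omit [Fintype X] in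
/-- the permutation of any `g : SL(2, ℤ)` lies in the closure of `toPerm S`, `toPerm Umat`. -/
theorem toPerm_mem_closure (hneg : ∀ x : X, (-1 : SL(2, ℤ)) • x = x) (g : SL(2, ℤ)) :
    MulAction.toPerm g ∈ Subgroup.closure
      ({MulAction.toPerm (S : SL(2, ℤ)), MulAction.toPerm Umat} : Set (Equiv.Perm X)) := by
  set C := Subgroup.closure
      ({MulAction.toPerm (S : SL(2, ℤ)), MulAction.toPerm Umat} : Set (Equiv.Perm X)) with hC
  have hSmem : (MulAction.toPerm (S : SL(2, ℤ)) : Equiv.Perm X) ∈ C :=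
    Subgroup.subset_closure (Or.inl rfl)
  have hUmem : (MulAction.toPerm Umat : Equiv.Perm X) ∈ C :=
    Subgroup.subset_closure (Or.inr rfl)
  have hTmem : (MulAction.toPerm (T : SL(2, ℤ)) : Equiv.Perm X) ∈ C := by
    have e : (MulAction.toPerm (T : SL(2, ℤ)) : Equiv.Perm X) =
        MulAction.toPerm Umat * MulAction.toPerm (S : SL(2, ℤ)) := by
      ext x
      show T • x = Umat • S • x
      rw [U_smul_S_smul hneg]
    rw [e]
    exact C.mul_mem hUmem hSmem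
  have hle : (⊤ : Subgroup SL(2, ℤ)) ≤ C.comap (MulAction.toPermHom SL(2, ℤ) X) := by
    rw [← SpecialLinearGroup.SL2Z_generators, Subgroup.closure_le]
    rintro g (rfl | rfl)
    · exact hSmem
    · exact hTmem
  exact hle (Subgroup.mem_top g)

end NondegAux

/-- **(C4)** the cup product pairing on `Hom_par(Γ, ℤ)` is nondegenerate modulo `p`. -/
theorem cup_nondeg (Γ : Subgroup SL(2, ℤ)) [Γ.FiniteIndex] (hneg : (-1 : SL(2, ℤ)) ∈ Γ)
    (p : ℕ) (hp : p.Prime) (φ : Additive Γ →+ ℤ) (hφ : φ ∈ parabolicHoms ℤ Γ ℤ)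
    (h : ∀ ψ ∈ parabolicHoms ℤ Γ ℤ, (p : ℤ) ∣ cup Γ φ ψ) :
    ∃ φ' ∈ parabolicHoms ℤ Γ ℤ, φ = (p : ℤ) • φ' := by
  classical
  let _ : Fintype (SL(2, ℤ) ⧸ Γ) := Fintype.ofFinite _
  have hnegX : ∀ x : SL(2, ℤ) ⧸ Γ, (-1 : SL(2, ℤ)) • x = x := sh_neg_one_smul hneg
  obtain ⟨d, hdT, -, hdS, rfl⟩ := exists_crossedHom_of_homPar Γ hneg φ hφ
  set m : SL(2, ℤ) ⧸ Γ → ℤ := d S with hm
  set σ : Equiv.Perm (SL(2, ℤ) ⧸ Γ) := MulAction.toPerm (S : SL(2, ℤ)) with hσdef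
  set τ : Equiv.Perm (SL(2, ℤ) ⧸ Γ) := MulAction.toPerm Umat with hτdef
  have hσ : ∀ x, σ (σ x) = x := fun x => S_smul_S_smul hnegX x
  have hτ : ∀ x, τ (τ (τ x)) = x := fun x => U_smul_cube hnegX x
  have hσx : ∀ x, σ x = S • x := fun _ => rfl
  have hτx : ∀ x, τ x = Umat • x := fun _ => rfl
  have hτσ : ∀ x, τ (σ x) = T • x := fun x => U_smul_S_smul hnegX x
  have htr : ∀ x y : SL(2, ℤ) ⧸ Γ,
      ∃ g ∈ Subgroup.closure ({σ, τ} : Set (Equiv.Perm (SL(2, ℤ) ⧸ Γ))), g x = y := by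
    intro x y
    obtain ⟨g, rfl⟩ := MulAction.exists_smul_eq SL(2, ℤ) x y
    exact ⟨MulAction.toPerm g, toPerm_mem_closure hnegX g, rfl⟩
  obtain ⟨hm1, hm2⟩ := hdS
  obtain ⟨μ₁, hμ₁⟩ := exists_sol_two_anti σ hσ m hm1
  obtain ⟨μ₂, hμ₂⟩ := exists_sol_three_anti τ hτ m hm2
  -- the divisibility hypothesis of `nondeg_perm`
  have hdiv : ∀ m' : SL(2, ℤ) ⧸ Γ → ℤ, (∀ x, m' x + m' (σ x) = 0) →
      (∀ x, m' x + m' (τ x) + m' (τ (τ x)) = 0) → (p : ℤ) ∣ ∑ x, m' x * (μ₁ x + μ₂ x) := by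
    intro m' hm'1 hm'2
    have hm'K : m' ∈ Kc (SL(2, ℤ) ⧸ Γ) := ⟨hm'1, hm'2⟩
    obtain ⟨L⟩ := exists_heisLift presentation hnegX hm'K (⟨hm1, hm2⟩ : m ∈ Kc (SL(2, ℤ) ⧸ Γ))
    have e2 : L.d' = d := CrossedHom.ext_of_S_T L.d'_S (by rw [L.d'_T, hdT])
    have hψ : L.d.ev ∈ parabolicHoms ℤ Γ ℤ :=
      CrossedHom.ev_mem_parabolicHoms Γ hneg L.d L.d_T L.d_neg
    have h1 := h _ hψ
    rw [cup_antisymm Γ hneg hφ hψ] at h1
    have h2 := cup_formula Γ hneg L.d d L.d_T (by rw [L.d_S]; exact hm'K) hdT ⟨hm1, hm2⟩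
    rw [L.d_S, ← hm] at h2
    -- the elementary identities
    have i1 : inner m' m = 2 * ∑ x, m' x * μ₁ x := by
      have a1 : ∑ x, m' x * μ₁ (σ x) = - ∑ x, m' x * μ₁ x := by
        rw [← Equiv.sum_comp σ (fun x => m' x * μ₁ x), ← Finset.sum_neg_distrib]
        refine Finset.sum_congr rfl fun x _ => ?_
        have := hm'1 (σ x)
        rw [hσ] at this
        have e : m' x = - m' (σ x) := by linarith
        rw [e]
        ring
      have a2 : inner m' m = ∑ x, m' x * μ₁ x - ∑ x, m' x * μ₁ (σ x) := by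
        rw [inner, ← Finset.sum_sub_distrib]
        refine Finset.sum_congr rfl fun x _ => ?_
        rw [← hμ₁ x]
        ring
      rw [a2, a1]
      ring
    have i2 : inner m' m = - 2 * (∑ x, m' x * μ₂ x) - ∑ x, m' (τ x) * μ₂ x := by
      have a1 : ∑ x, m' x * μ₂ (τ x) = ∑ x, m' (τ (τ x)) * μ₂ x := by
        rw [← Equiv.sum_comp τ (fun x => m' (τ (τ x)) * μ₂ x)]
        refine Finset.sum_congr rfl fun x _ => ?_
        simp only [hτ]
      have a2 : ∑ x, m' (τ (τ x)) * μ₂ x = - ∑ x, m' x * μ₂ x - ∑ x, m' (τ x) * μ₂ x := by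
        rw [← Finset.sum_neg_distrib, ← Finset.sum_sub_distrib]
        refine Finset.sum_congr rfl fun x _ => ?_
        have := hm'2 x
        have e : m' (τ (τ x)) = - m' x - m' (τ x) := by linarith
        rw [e]
        ring
      have a3 : inner m' m = ∑ x, m' x * μ₂ (τ x) - ∑ x, m' x * μ₂ x := by
        rw [inner, ← Finset.sum_sub_distrib]
        refine Finset.sum_congr rfl fun x _ => ?_
        rw [← hμ₂ x]
        ring
      rw [a3, a1, a2]
      ring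
    have i3 : inner (fun x => m' (Umat • x)) m = ∑ x, m' x * μ₂ x - ∑ x, m' (τ x) * μ₂ x := by
      have a1 : ∑ x, m' (τ x) * μ₂ (τ x) = ∑ x, m' x * μ₂ x :=
        Equiv.sum_comp τ (fun x => m' x * μ₂ x)
      have a3 : inner (fun x => m' (Umat • x)) m =
          ∑ x, m' (τ x) * μ₂ (τ x) - ∑ x, m' (τ x) * μ₂ x := by
        rw [inner, ← Finset.sum_sub_distrib]
        refine Finset.sum_congr rfl fun x _ => ?_
        rw [← hμ₂ x, hτx]
        ring
      rw [a3, a1]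
    have i4 : cup Γ L.d.ev d.ev = - ∑ x, m' x * (μ₁ x + μ₂ x) := by
      have e : ∑ x, m' x * (μ₁ x + μ₂ x) = ∑ x, m' x * μ₁ x + ∑ x, m' x * μ₂ x := by
        rw [← Finset.sum_add_distrib]
        exact Finset.sum_congr rfl fun x _ => by ring
      rw [e]
      have : (6 : ℤ) * cup Γ L.d.ev d.ev =
          6 * - (∑ x, m' x * μ₁ x + ∑ x, m' x * μ₂ x) := by
        rw [h2, i3]
        linear_combination (-3 : ℤ) * i1 + 2 * i2
      exact mul_left_cancel₀ (by norm_num) this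
    rw [i4, neg_neg] at h1
    exact h1
  obtain ⟨w, k, hw, hk1, hk2, hmwk⟩ := nondeg_perm σ τ hσ hτ htr p hp m μ₁ μ₂ hμ₁ hμ₂ hdiv
  have hkK : k ∈ Kc (SL(2, ℤ) ⧸ Γ) := ⟨hk1, hk2⟩
  obtain ⟨Lk⟩ := exists_heisLift presentation hnegX hkK hkK
  have hd : d = cobCross w (p : ℤ) Lk.d := by
    apply CrossedHom.ext_of_S_T
    · funext x
      rw [cobCross_apply, Lk.d_S]
      have := hmwk x
      rw [hσx] at this
      rw [← hm]
      exact this
    · funext x
      rw [cobCross_apply, Lk.d_T, hdT]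
      have := hw x
      rw [hτσ] at this
      simp only [Pi.zero_apply, mul_zero, add_zero, this, sub_self]
  refine ⟨Lk.d.ev, CrossedHom.ev_mem_parabolicHoms Γ hneg Lk.d Lk.d_T Lk.d_neg, ?_⟩
  refine AddMonoidHom.ext fun a => ?_
  obtain ⟨γ, rfl⟩ : ∃ γ : Γ, Additive.ofMul γ = a := ⟨Additive.toMul a, rfl⟩
  have hfix : (γ : SL(2, ℤ)) • ((1 : SL(2, ℤ)) : SL(2, ℤ) ⧸ Γ) =
      ((1 : SL(2, ℤ)) : SL(2, ℤ) ⧸ Γ) := by
    rw [MulAction.Quotient.smul_mk, QuotientGroup.eq]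
    simp
  rw [AddMonoidHom.smul_apply, CrossedHom.ev_apply, CrossedHom.ev_apply]
  conv_lhs => rw [hd]
  rw [cobCross_apply, hfix, sub_self, zero_add, smul_eq_mul]

end Fermat.Agent.LPD
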