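/-
Cluster L / PD, work package (RC): in the Shapiro model the transfer is the push-forward
(fibre sums) of crossed homomorphisms.  Statement fixed by helper17; proof by helper21.

Setting: `K ≤ Γ ≤ G = SL(2, ℤ)`, `Γ'' = imSub Γ K` the image of `K` in `G`, `π = projK Γ K :
G ⧸ Γ'' → G ⧸ Γ`, `d` a crossed homomorphism on `Y = G ⧸ Γ''` (right convention
`d (g h) y = d g (h • y) + d h y`), `evK Γ K d : K →* Multiplicative ℤ`, `k ↦ d k y₀`.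

Proof.  LHS `= ∑_{y ∈ π⁻¹(x₀)} d γ y`.  For a left transversal `α : Γ ⧸ K → Γ` the map
`ι : Γ ⧸ K → π⁻¹(x₀)`, `q ↦ α q • y₀` is a bijection, so LHS `= ∑_q d γ (ι q)`.
RHS `= ∑_q d ((α q)⁻¹ γ α (γ⁻¹ q)) y₀` (`MonoidHom.transfer_def`) and the cocycle rule gives
`d (a⁻¹ γ b) y₀ = d γ (b • y₀) + d b y₀ - d a y₀` when `a⁻¹ γ b` fixes `y₀`; the last two terms
cancel after summation (`q ↦ γ⁻¹ q` is a permutation).
-/
import Fermat.Agent.L.PD.PushPull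

set_option autoImplicit false

noncomputable section

namespace Fermat.Agent.LPD

open scoped MatrixGroups

section CocycleRule

variable {X : Type*} [MulAction SL(2, ℤ) X] {A : Type*} [AddCommGroup A]

/-- cocycle rule for `a⁻¹ g b` fixing `y`. -/
theorem CrossedHom.map_conj_of_fixed (d : CrossedHom X A) (a g b : SL(2, ℤ)) (y : X)
    (h : (a⁻¹ * g * b) • y = y) :
    d (a⁻¹ * g * b) y = d g (b • y) + d b y - d a y := by
  have h1 : a⁻¹ • g • b • y = y := by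
    rw [← mul_smul, ← mul_smul]
    exact h
  rw [d.map_mul, d.map_mul, d.map_inv, h1]
  abel

end CocycleRule

section RC

variable (Γ : Subgroup SL(2, ℤ)) (K : Subgroup Γ)

theorem rc_mk_eq_mk_iff (a b : Γ) :
    (((a : SL(2, ℤ)) : SL(2, ℤ) ⧸ imSub Γ K) = ((b : SL(2, ℤ)) : SL(2, ℤ) ⧸ imSub Γ K)) ↔
      a⁻¹ * b ∈ K := by
  rw [QuotientGroup.eq]
  constructor
  · rintro ⟨k, hk, hkeq⟩
    have h1 : k = a⁻¹ * b := Subtype.ext (by simpa using hkeq)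
    rwa [← h1]
  · intro h
    exact ⟨a⁻¹ * b, h, by simp⟩

theorem rc_projK_eq_one_iff (y : SL(2, ℤ) ⧸ imSub Γ K) :
    projK Γ K y = ((1 : SL(2, ℤ)) : SL(2, ℤ) ⧸ Γ) ↔
      ∃ t : Γ, y = ((t : SL(2, ℤ)) : SL(2, ℤ) ⧸ imSub Γ K) := by
  obtain ⟨g, rfl⟩ := QuotientGroup.mk_surjective y
  rw [projK_mk]
  constructor
  · intro h
    have hg : g ∈ Γ := by
      have h1 := QuotientGroup.eq.mp h
      have h2 : g⁻¹ ∈ Γ := by simpa using h1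
      simpa using Γ.inv_mem h2
    exact ⟨⟨g, hg⟩, rfl⟩
  · rintro ⟨t, ht⟩
    have h1 := congrArg (projK Γ K) ht
    rw [projK_mk, projK_mk] at h1
    rw [h1, QuotientGroup.eq]
    simp

open Subgroup Subgroup.leftTransversals in
/-- **(RC)** the homomorphism induced by the push-forward of a crossed homomorphism is the
transfer of the homomorphism induced by the crossed homomorphism. -/
theorem ev_push_eq_transfer [K.FiniteIndex]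
    [Fintype (SL(2, ℤ) ⧸ imSub Γ K)] (d : CrossedHom (SL(2, ℤ) ⧸ imSub Γ K) ℤ) (γ : Γ) :
    (d.push (projK Γ K) (projK_smul Γ K)).ev (Additive.ofMul γ) =
      Multiplicative.toAdd (MonoidHom.transfer (evK Γ K d) γ) := by
  classical
  let _ : Fintype (Γ ⧸ K) := K.fintypeQuotientOfFiniteIndex
  set y₀ : SL(2, ℤ) ⧸ imSub Γ K := ((1 : SL(2, ℤ)) : SL(2, ℤ) ⧸ imSub Γ K) with hy₀
  let T : K.LeftTransversal := default
  let α : Γ ⧸ K ≃ T.1 := T.2.leftQuotientEquiv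
  -- the bijection `Γ ⧸ K → π⁻¹(x₀)`
  let ι : Γ ⧸ K → SL(2, ℤ) ⧸ imSub Γ K :=
    fun q => ((((α q : Γ)) : SL(2, ℤ)) : SL(2, ℤ) ⧸ imSub Γ K)
  have hι : ∀ q, ι q = (((α q : Γ)) : SL(2, ℤ)) • y₀ := by
    intro q
    show _ = (((((α q : Γ)) : SL(2, ℤ)) * 1 : SL(2, ℤ)) : SL(2, ℤ) ⧸ imSub Γ K)
    rw [mul_one]
  have hαq : ∀ q : Γ ⧸ K, (((α q : Γ)) : Γ ⧸ K) = q := fun q =>
    T.2.quotientGroupMk_leftQuotientEquiv q
  -- LHS as a sum over `Γ ⧸ K`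
  have hL : (d.push (projK Γ K) (projK_smul Γ K)).ev (Additive.ofMul γ) =
      ∑ q : Γ ⧸ K, d (γ : SL(2, ℤ)) (ι q) := by
    rw [CrossedHom.ev_apply, CrossedHom.push_apply, pushFun_apply]
    refine (Finset.sum_bij (fun q _ => ι q) ?_ ?_ ?_ ?_).symm
    · intro q _
      simp only [Finset.mem_filter, Finset.mem_univ, true_and]
      exact (rc_projK_eq_one_iff Γ K _).mpr ⟨α q, rfl⟩
    · intro q _ q' _ h
      have h1 := (rc_mk_eq_mk_iff Γ K (α q) (α q')).mp h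
      have h2 : (((α q : Γ)) : Γ ⧸ K) = (((α q' : Γ)) : Γ ⧸ K) := QuotientGroup.eq.mpr h1
      rw [hαq, hαq] at h2
      exact h2
    · intro y hy
      simp only [Finset.mem_filter, Finset.mem_univ, true_and] at hy
      obtain ⟨t, rfl⟩ := (rc_projK_eq_one_iff Γ K y).mp hy
      refine ⟨(t : Γ ⧸ K), Finset.mem_univ _, ?_⟩
      apply (rc_mk_eq_mk_iff Γ K _ _).mpr
      exact QuotientGroup.eq.mp (hαq (t : Γ ⧸ K))
    · intro q _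
      rfl
  -- RHS as a sum over `Γ ⧸ K`
  have hR : Multiplicative.toAdd (MonoidHom.transfer (evK Γ K d) γ) =
      ∑ q : Γ ⧸ K, d ((((α q : Γ))⁻¹ * γ * ((α (γ⁻¹ • q) : Γ)) : Γ) : SL(2, ℤ)) y₀ := by
    rw [MonoidHom.transfer_def (evK Γ K d) T γ]
    unfold Subgroup.leftTransversals.diff
    simp only
    rw [toAdd_prod]
    refine Finset.sum_congr rfl fun q _ => ?_
    rw [evK_apply, toAdd_ofAdd]
    have h1 : (((γ • T).2.leftQuotientEquiv q : Γ)) = γ * ((α (γ⁻¹ • q) : Γ)) := by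
      rw [smul_apply_eq_smul_apply_inv_smul]
      rfl
    simp only [h1, mul_assoc]
    rfl
  rw [hL, hR]
  -- the cocycle rule
  have hfix : ∀ q : Γ ⧸ K, ((((α q : Γ)) : SL(2, ℤ))⁻¹ * (γ : SL(2, ℤ)) *
      (((α (γ⁻¹ • q) : Γ)) : SL(2, ℤ))) • y₀ = y₀ := by
    intro q
    have h1 : ((α q : Γ))⁻¹ * (γ * ((α (γ⁻¹ • q) : Γ))) ∈ K := by
      apply QuotientGroup.eq.mp
      rw [hαq]
      show q = γ • (((α (γ⁻¹ • q) : Γ)) : Γ ⧸ K)
      rw [hαq, smul_inv_smul]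
    show ((((((α q : Γ)) : SL(2, ℤ))⁻¹ * (γ : SL(2, ℤ)) *
      (((α (γ⁻¹ • q) : Γ)) : SL(2, ℤ))) * 1 : SL(2, ℤ)) : SL(2, ℤ) ⧸ imSub Γ K) = _
    rw [hy₀, QuotientGroup.eq]
    refine ⟨(((α q : Γ))⁻¹ * (γ * ((α (γ⁻¹ • q) : Γ))))⁻¹, K.inv_mem h1, ?_⟩
    simp [mul_assoc]
  have hterm : ∀ q : Γ ⧸ K,
      d ((((α q : Γ))⁻¹ * γ * ((α (γ⁻¹ • q) : Γ)) : Γ) : SL(2, ℤ)) y₀ =
        d (γ : SL(2, ℤ)) (ι (γ⁻¹ • q)) + d (((α (γ⁻¹ • q) : Γ)) : SL(2, ℤ)) y₀ -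
          d (((α q : Γ)) : SL(2, ℤ)) y₀ := by
    intro q
    have h1 := CrossedHom.map_conj_of_fixed d (((α q : Γ)) : SL(2, ℤ)) (γ : SL(2, ℤ))
      (((α (γ⁻¹ • q) : Γ)) : SL(2, ℤ)) y₀ (hfix q)
    rw [hι]
    exact h1
  simp only [hterm, Finset.sum_sub_distrib, Finset.sum_add_distrib]
  have e1 : ∑ q : Γ ⧸ K, d (γ : SL(2, ℤ)) (ι (γ⁻¹ • q)) = ∑ q : Γ ⧸ K, d (γ : SL(2, ℤ)) (ι q) :=
    Equiv.sum_comp (MulAction.toPerm γ⁻¹) (fun q => d (γ : SL(2, ℤ)) (ι q))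
  have e2 : ∑ q : Γ ⧸ K, d (((α (γ⁻¹ • q) : Γ)) : SL(2, ℤ)) y₀ =
      ∑ q : Γ ⧸ K, d (((α q : Γ)) : SL(2, ℤ)) y₀ :=
    Equiv.sum_comp (MulAction.toPerm γ⁻¹) (fun q => d (((α q : Γ)) : SL(2, ℤ)) y₀)
  rw [e1, e2]
  abel

end RC

end Fermat.Agent.LPD
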