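/-
Cluster L / PD, work package (C5): restriction and transfer are adjoint for the cup product.
OWNER: helper54.  Statement fixed by helper17 (NOTES/blueprint-L-PD.md).

Proof (Shapiro model).  `X = G ⧸ Γ`, `Y = G ⧸ Γ''`, `Γ'' = imSub Γ K`, `π = projK Γ K`.
 * `φ = d.ev`, `ψ = d''.ev` with normalised crossed homs (`exists_crossedHom_of_homPar`).
 * `res φ = (d.pull π _).ev` (definitional), `transfer ψ = (d''.push π _).ev` (`ev_push_eq_transfer`).
 * `pull`, `push` of normalised crossed homs are normalised with `S`-values `pullFun π m`,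
   `pushFun π m''` in `Kc` (`pullFun_mem_Kc`, `pushFun_mem_Kc`).
 * `cup_formula` on both sides + `inner_pullFun` (+ `π (U • y) = U • π y`); cancel the factor `6`.
-/
import Fermat.Agent.L.PD.CupShapiro
import Fermat.Agent.L.PD.ResCor

set_option autoImplicit false
set_option linter.style.haveILetI false

noncomputable section

namespace Fermat.Agent.LPD

open scoped MatrixGroups
open ModularGroup MulAction ModularCurve.Period

/-- **(C5)** `cup_{Γ''}(res φ, ψ) = cup_Γ(φ, transfer ψ)` for `Γ'' ≤ Γ` of finite index. -/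
theorem cup_res_transfer (Γ : Subgroup SL(2, ℤ)) [Γ.FiniteIndex] (hneg : (-1 : SL(2, ℤ)) ∈ Γ)
    (K : Subgroup Γ) [K.FiniteIndex] [(imSub Γ K).FiniteIndex]
    (hnegK : (-1 : SL(2, ℤ)) ∈ imSub Γ K)
    (φ : Additive Γ →+ ℤ) (hφ : φ ∈ parabolicHoms ℤ Γ ℤ)
    (ψ : Additive (imSub Γ K) →+ ℤ) (hψ : ψ ∈ parabolicHoms ℤ (imSub Γ K) ℤ) :
    cup (imSub Γ K) (φ.comp (MonoidHom.toAdditive (Subgroup.inclusion (imSub_le Γ K)))) ψ =
      cup Γ φ (MonoidHom.toAdditiveLeft (MonoidHom.transfer
        ((AddMonoidHom.toMultiplicativeRight ψ).comp (Γ.subtype.subgroupMap K)))) := by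
  classical
  letI : Fintype (SL(2, ℤ) ⧸ Γ) := Fintype.ofFinite _
  letI : Fintype (SL(2, ℤ) ⧸ imSub Γ K) := Fintype.ofFinite _
  obtain ⟨d, hT, -, hS, rfl⟩ := exists_crossedHom_of_homPar Γ hneg φ hφ
  obtain ⟨d'', hT'', -, hS'', rfl⟩ := exists_crossedHom_of_homPar (imSub Γ K) hnegK ψ hψ
  -- the restriction is induced by the pull-back
  have hres : d.ev.comp (MonoidHom.toAdditive (Subgroup.inclusion (imSub_le Γ K))) =
      (d.pull (projK Γ K) (projK_smul Γ K)).ev := by
    refine AddMonoidHom.ext fun a => ?_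
    obtain ⟨γ, rfl⟩ : ∃ γ : imSub Γ K, Additive.ofMul γ = a := ⟨Additive.toMul a, rfl⟩
    rw [CrossedHom.ev_apply, CrossedHom.pull_apply, pullFun_apply, projK_mk]
    rfl
  -- the transfer is induced by the push-forward
  have htr : MonoidHom.toAdditiveLeft (MonoidHom.transfer
      ((AddMonoidHom.toMultiplicativeRight d''.ev).comp (Γ.subtype.subgroupMap K))) =
      (d''.push (projK Γ K) (projK_smul Γ K)).ev := by
    refine AddMonoidHom.ext fun a => ?_
    obtain ⟨γ, rfl⟩ : ∃ γ : Γ, Additive.ofMul γ = a := ⟨Additive.toMul a, rfl⟩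
    rw [ev_push_eq_transfer Γ K d'' γ]
    rfl
  rw [hres, htr]
  -- normalisations
  have hpT : d.pull (projK Γ K) (projK_smul Γ K) T = 0 := by
    rw [CrossedHom.pull_apply, hT]
    rfl
  have hpS : d.pull (projK Γ K) (projK_smul Γ K) S ∈ Kc (SL(2, ℤ) ⧸ imSub Γ K) := by
    rw [CrossedHom.pull_apply]
    exact pullFun_mem_Kc _ (projK_smul Γ K) hS
  have hqT : d''.push (projK Γ K) (projK_smul Γ K) T = 0 := by
    rw [CrossedHom.push_apply, hT'', pushFun_zero]
  have hqS : d''.push (projK Γ K) (projK_smul Γ K) S ∈ Kc (SL(2, ℤ) ⧸ Γ) := by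
    rw [CrossedHom.push_apply]
    exact pushFun_mem_Kc _ (projK_smul Γ K) hS''
  have h1 := cup_formula (imSub Γ K) hnegK (d.pull (projK Γ K) (projK_smul Γ K)) d'' hpT hpS
    hT'' hS''
  have h2 := cup_formula Γ hneg d (d''.push (projK Γ K) (projK_smul Γ K)) hT hS hqT hqS
  rw [CrossedHom.pull_apply] at h1
  rw [CrossedHom.push_apply] at h2
  have e1 : inner (pullFun (projK Γ K) (d S)) (d'' S) =
      inner (d S) (pushFun (projK Γ K) (d'' S)) := inner_pullFun _ _ _
  have e2 : inner (fun y => pullFun (projK Γ K) (d S) (Umat • y)) (d'' S) =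
      inner (fun x => d S (Umat • x)) (pushFun (projK Γ K) (d'' S)) := by
    have e3 : (fun y => pullFun (projK Γ K) (d S) (Umat • y)) =
        pullFun (projK Γ K) (fun x => d S (Umat • x)) := by
      funext y
      simp only [pullFun_apply, projK_smul]
    rw [e3]
    exact inner_pullFun _ _ _
  rw [e1, e2, ← h2] at h1
  omega

end Fermat.Agent.LPD
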