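/-
Cluster L / PD, work package (M3): the cusp sum is invariant under isomorphisms `Γ₁ ≃ Γ₂` which
preserve positive parabolic elements (e.g. conjugation by `diag(q, 1)`).
Statement fixed by helper17 (NOTES/blueprint-L-PD.md); proof by helper85.

Proof.  `P(Γ)` := primitive positive parabolic elements of `Γ`
(`γ ∈ Γ`, `IsPosPar γ`, and `γ = δ ^ n`, `δ ∈ Γ` positive parabolic implies `n = 1`).
 (1) `cuspElt Γ q ∈ P(Γ)`  (`cuspElt_isPrimPosPar`);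
 (2) every element of `P(Γ)` is `Γ`-conjugate to `cuspElt Γ q.out` for exactly one orbit `q` of
     `⟨T⟩` on `G ⧸ Γ`  (`exists_orbit_conj`, `orbit_eq_of_conj`; here `-1 ∈ Γ` is used);
 (3) `c` maps `P(Γ₁)` onto `P(Γ₂)` and conjugacy classes to conjugacy classes, hence induces a
     bijection of the orbit sets; `finsum_eq_of_bijective` + `hf`.
-/
import Fermat.Agent.L.PD.Defs
import Fermat.Agent.S16.LB.Residue.Parabolic
import Fermat.Agent.L.PD.Conj.Classes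

set_option autoImplicit false

noncomputable section

namespace Fermat.Agent.LPD

open scoped MatrixGroups

/-- An isomorphism preserving positive parabolic elements preserves the primitive ones. -/
theorem IsPrimPosPar.map {Γ₁ Γ₂ : Subgroup SL(2, ℤ)} (c : Γ₁ ≃* Γ₂)
    (hc : ∀ γ : Γ₁, IsPosPar (γ : SL(2, ℤ)) ↔ IsPosPar ((c γ : Γ₂) : SL(2, ℤ)))
    {γ : Γ₁} (h : IsPrimPosPar Γ₁ γ) : IsPrimPosPar Γ₂ (c γ) := by
  refine ⟨(hc γ).mp h.1, ?_⟩
  intro δ n hδ hn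
  have hδ' : IsPosPar ((c.symm δ : Γ₁) : SL(2, ℤ)) := by
    rw [hc, c.apply_symm_apply]; exact hδ
  apply h.2 (c.symm δ) n hδ'
  rw [← map_pow, hn, c.symm_apply_apply]

/-- **(M3)** invariance of the cusp sum under an isomorphism preserving positive parabolics. -/
theorem cuspSum_comp_mulEquiv (Γ₁ Γ₂ : Subgroup SL(2, ℤ)) [Γ₁.FiniteIndex] [Γ₂.FiniteIndex]
    (h₁ : (-1 : SL(2, ℤ)) ∈ Γ₁) (h₂ : (-1 : SL(2, ℤ)) ∈ Γ₂) (c : Γ₁ ≃* Γ₂)
    (hc : ∀ γ : Γ₁, IsPosPar (γ : SL(2, ℤ)) ↔ IsPosPar ((c γ : Γ₂) : SL(2, ℤ)))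
    {R : Type*} [AddCommMonoid R] (f : Γ₂ → R)
    (hf : ∀ γ δ : Γ₂, IsPosPar (γ : SL(2, ℤ)) → f (δ * γ * δ⁻¹) = f γ) :
    cuspSum Γ₁ (fun γ => f (c γ)) = cuspSum Γ₂ f := by
  have hc' : ∀ γ : Γ₂, IsPosPar (γ : SL(2, ℤ)) ↔ IsPosPar ((c.symm γ : Γ₁) : SL(2, ℤ)) := by
    intro γ
    rw [hc, c.apply_symm_apply]
  -- the map on orbits
  have hex : ∀ O : TOrbits Γ₁, ∃ (O' : TOrbits Γ₂) (β : Γ₂),
      c (cuspElt Γ₁ O.out) = β * cuspElt Γ₂ O'.out * β⁻¹ := fun O =>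
    exists_orbit_conj Γ₂ _ ((cuspElt_isPrimPosPar Γ₁ O.out).map c hc)
  choose e he using hex
  have hinj : Function.Injective e := by
    intro O O' hOO'
    obtain ⟨β, hβ⟩ := he O
    obtain ⟨β', hβ'⟩ := he O'
    rw [hOO'] at hβ
    apply orbit_eq_of_conj Γ₁ h₁ O O' (c.symm (β' * β⁻¹))
    apply c.injective
    rw [map_mul, map_mul, map_inv, c.apply_symm_apply, hβ, hβ']
    group
  have hsurj : Function.Surjective e := by
    intro O₂
    obtain ⟨O₁, β, hβ⟩ := exists_orbit_conj Γ₁ _ ((cuspElt_isPrimPosPar Γ₂ O₂.out).map c.symm hc')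
    refine ⟨O₁, ?_⟩
    obtain ⟨β', hβ'⟩ := he O₁
    -- `cuspElt Γ₂ O₂.out = c β * c (cuspElt Γ₁ O₁.out) * (c β)⁻¹`
    have h2 : cuspElt Γ₂ O₂.out = c β * c (cuspElt Γ₁ O₁.out) * (c β)⁻¹ := by
      have := congrArg c hβ
      rw [c.apply_symm_apply, map_mul, map_mul, map_inv] at this
      exact this
    apply orbit_eq_of_conj Γ₂ h₂ (e O₁) O₂ (c β * β')
    rw [h2, hβ']
    group
  unfold cuspSum
  refine finsum_eq_of_bijective e ⟨hinj, hsurj⟩ ?_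
  intro O
  obtain ⟨β, hβ⟩ := he O
  show f (c (cuspElt Γ₁ O.out)) = f (cuspElt Γ₂ (e O).out)
  rw [hβ]
  exact hf _ _ (isPosPar_cuspElt Γ₂ _)

end Fermat.Agent.LPD
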