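/-
Cluster L / PD, work package (C6): the cup product is invariant under isomorphisms `Γ₁ ≃ Γ₂`
preserving positive parabolic elements.
Statement fixed by helper17 (NOTES/blueprint-L-PD.md); proof by helper85.

Proof.  `η` a primitive of `φ ∪ ψ` on `Γ₂` (`exists_isEta`); `η ∘ c` is a primitive of
`(φ ∘ c) ∪ (ψ ∘ c)`; `cup_eq_cuspSum` on both sides; `cuspSum_comp_mulEquiv` (M3), where
`η (δ γ δ⁻¹) = η γ` for positive parabolic `γ` since `φ γ = ψ γ = 0` (trace `2`).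
-/
import Fermat.Agent.L.PD.CupShapiro
import Fermat.Agent.L.PD.Conj

set_option autoImplicit false

noncomputable section

namespace Fermat.Agent.LPD

open scoped MatrixGroups
open ModularGroup MulAction ModularCurve.Period

/-- A primitive vanishes at `1`. -/
theorem IsEta.map_one {Γ : Subgroup SL(2, ℤ)} {φ ψ : Additive Γ →+ ℤ} {η : Γ → ℤ}
    (h : IsEta φ ψ η) : η 1 = 0 := by
  have e := h 1 1
  simp only [mul_one, ofMul_one, map_zero, mul_zero, add_zero] at e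
  linarith

/-- A primitive of `φ ∪ ψ` is invariant under conjugation at the elements killed by `φ` and
`ψ`. -/
theorem IsEta.conj_eq {Γ : Subgroup SL(2, ℤ)} {φ ψ : Additive Γ →+ ℤ} {η : Γ → ℤ}
    (h : IsEta φ ψ η) (γ δ : Γ) (hφγ : φ (Additive.ofMul γ) = 0)
    (hψγ : ψ (Additive.ofMul γ) = 0) : η (δ * γ * δ⁻¹) = η γ := by
  have e1 := h (δ * γ) δ⁻¹
  have e2 := h δ γ
  have e3 := h δ δ⁻¹
  rw [mul_inv_cancel, h.map_one] at e3
  have hφ : φ (Additive.ofMul (δ * γ)) = φ (Additive.ofMul δ) := by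
    rw [ofMul_mul, map_add, hφγ, add_zero]
  have hψ : ψ (Additive.ofMul δ⁻¹) = - ψ (Additive.ofMul δ) := by
    rw [ofMul_inv, map_neg]
  rw [e1, e2, hφ, hψγ]
  rw [hψ] at e3 ⊢
  linarith

/-- Pull-back of a primitive along an isomorphism. -/
theorem IsEta.comp_mulEquiv {Γ₁ Γ₂ : Subgroup SL(2, ℤ)} (c : Γ₁ ≃* Γ₂)
    {φ ψ : Additive Γ₂ →+ ℤ} {η : Γ₂ → ℤ} (h : IsEta φ ψ η) :
    IsEta (φ.comp (MonoidHom.toAdditive c.toMonoidHom))
      (ψ.comp (MonoidHom.toAdditive c.toMonoidHom)) (fun γ => η (c γ)) := by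
  intro a b
  show η (c (a * b)) = η (c a) + η (c b) + φ (Additive.ofMul (c a)) * ψ (Additive.ofMul (c b))
  rw [map_mul, h]

/-- **(C6)** invariance of the cup product under isomorphisms preserving positive parabolics. -/
theorem cup_comp_mulEquiv (Γ₁ Γ₂ : Subgroup SL(2, ℤ)) [Γ₁.FiniteIndex] [Γ₂.FiniteIndex]
    (h₁ : (-1 : SL(2, ℤ)) ∈ Γ₁) (h₂ : (-1 : SL(2, ℤ)) ∈ Γ₂) (c : Γ₁ ≃* Γ₂)
    (hc : ∀ γ : Γ₁, IsPosPar (γ : SL(2, ℤ)) ↔ IsPosPar ((c γ : Γ₂) : SL(2, ℤ)))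
    (φ ψ : Additive Γ₂ →+ ℤ) (hφ : φ ∈ parabolicHoms ℤ Γ₂ ℤ) (hψ : ψ ∈ parabolicHoms ℤ Γ₂ ℤ) :
    cup Γ₁ (φ.comp (MonoidHom.toAdditive c.toMonoidHom))
      (ψ.comp (MonoidHom.toAdditive c.toMonoidHom)) = cup Γ₂ φ ψ := by
  obtain ⟨η, hη⟩ := exists_isEta Γ₂ h₂ hφ hψ
  rw [cup_eq_cuspSum Γ₁ (hη.comp_mulEquiv c), cup_eq_cuspSum Γ₂ hη]
  refine cuspSum_comp_mulEquiv Γ₁ Γ₂ h₁ h₂ c hc η ?_
  intro γ δ hγ
  have htr : ((γ : SL(2, ℤ)) : Matrix (Fin 2) (Fin 2) ℤ).trace ^ 2 = 4 := by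
    rw [hγ.2.1]; norm_num
  exact hη.conj_eq γ δ (hφ γ htr) (hψ γ htr)

end Fermat.Agent.LPD
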