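/-
Cluster L / PD (helper17), work package (PF): the projection formula for an injective
homomorphism `f : Γ' → Γ` with image of finite index which preserves traces and positive
parabolic elements (the inclusion `Γ₀(N q) → Γ₀(N)` and the conjugation by `diag(q, 1)`).

`K := f.range`, `Γ'' := imSub Γ K`, `c : Γ' ≃* Γ''`, `c γ = ⟨f γ, _⟩`.
 `cup Γ' (x ∘ f) y = cup Γ'' (x|Γ'') (y ∘ c⁻¹)`   by (C6) `cup_comp_mulEquiv`
 `               = cup Γ x (transfer (y ∘ c⁻¹ ∘ subgroupMap))` by (C5) `cup_res_transfer`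
 and `c⁻¹ ∘ subgroupMap = (MonoidHom.ofInjective hf).symm`, so the last is `coresFun f ℤ y`.
-/
import Fermat.Agent.L.PD.Adjoint
import Fermat.Agent.L.PD.Iso
import Fermat.Agent.L.Defs

set_option autoImplicit false

noncomputable section

namespace Fermat.Agent.LPD

open scoped MatrixGroups
open ModularGroup MulAction ModularCurve.Period

/-- The isomorphism of `Γ'` with the image of `f : Γ' → Γ` in `SL(2, ℤ)`. -/
def imEquiv {Γ' Γ : Subgroup SL(2, ℤ)} (f : Γ' →* Γ) (hf : Function.Injective f) :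
    Γ' ≃* imSub Γ f.range :=
  (MonoidHom.ofInjective hf).trans
    (Subgroup.equivMapOfInjective f.range Γ.subtype (Subgroup.subtype_injective Γ))

theorem coe_imEquiv {Γ' Γ : Subgroup SL(2, ℤ)} (f : Γ' →* Γ) (hf : Function.Injective f)
    (γ : Γ') : ((imEquiv f hf γ : imSub Γ f.range) : SL(2, ℤ)) = ((f γ : Γ) : SL(2, ℤ)) := rfl

theorem imEquiv_symm_subgroupMap {Γ' Γ : Subgroup SL(2, ℤ)} (f : Γ' →* Γ)
    (hf : Function.Injective f) (k : f.range) :
    (imEquiv f hf).symm (Γ.subtype.subgroupMap f.range k) = (MonoidHom.ofInjective hf).symm k := by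
  rw [MulEquiv.symm_apply_eq]
  apply Subtype.ext
  rw [coe_imEquiv]
  show ((k : Γ) : SL(2, ℤ)) = _
  congr 1
  have := (MonoidHom.ofInjective hf).apply_symm_apply k
  exact (congrArg Subtype.val this).symm

/-- **(PF)** the projection formula `cup_{Γ'}(x ∘ f, y) = cup_Γ(x, cores_f y)`. -/
theorem cup_res_cores (Γ' Γ : Subgroup SL(2, ℤ)) [Γ'.FiniteIndex] [Γ.FiniteIndex]
    (hneg' : (-1 : SL(2, ℤ)) ∈ Γ') (hneg : (-1 : SL(2, ℤ)) ∈ Γ)
    (f : Γ' →* Γ) (hf : Function.Injective f) [f.range.FiniteIndex]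
    (hfneg : ((f ⟨-1, hneg'⟩ : Γ) : SL(2, ℤ)) = -1)
    (htr : ∀ γ : Γ', (((f γ : Γ) : SL(2, ℤ)) : Matrix (Fin 2) (Fin 2) ℤ).trace =
      ((γ : SL(2, ℤ)) : Matrix (Fin 2) (Fin 2) ℤ).trace)
    (hpos : ∀ γ : Γ', IsPosPar (γ : SL(2, ℤ)) ↔ IsPosPar ((f γ : Γ) : SL(2, ℤ)))
    (x : Additive Γ →+ ℤ) (hx : x ∈ parabolicHoms ℤ Γ ℤ)
    (y : Additive Γ' →+ ℤ) (hy : y ∈ parabolicHoms ℤ Γ' ℤ) :
    cup Γ' (x.comp (MonoidHom.toAdditive f)) y = cup Γ x (Fermat.Agent.L.coresFun f ℤ y) := by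
  set K : Subgroup Γ := f.range with hK
  have hfi : (imSub Γ K).FiniteIndex :=
    ⟨by
      rw [imSub, Subgroup.index_map_subtype]
      exact mul_ne_zero Subgroup.FiniteIndex.index_ne_zero Subgroup.FiniteIndex.index_ne_zero⟩
  have hnegK : (-1 : SL(2, ℤ)) ∈ imSub Γ K := by
    rw [← hfneg]
    exact ⟨f ⟨-1, hneg'⟩, ⟨_, rfl⟩, rfl⟩
  set c : Γ' ≃* imSub Γ K := imEquiv f hf with hc
  set φ'' : Additive (imSub Γ K) →+ ℤ :=
    x.comp (MonoidHom.toAdditive (Subgroup.inclusion (imSub_le Γ K))) with hφ''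
  set ψ'' : Additive (imSub Γ K) →+ ℤ := y.comp (MonoidHom.toAdditive c.symm.toMonoidHom)
    with hψ''
  have hφ''par : φ'' ∈ parabolicHoms ℤ (imSub Γ K) ℤ := by
    intro γ hγ
    exact hx (Subgroup.inclusion (imSub_le Γ K) γ) hγ
  have hψ''par : ψ'' ∈ parabolicHoms ℤ (imSub Γ K) ℤ := by
    intro γ hγ
    apply hy (c.symm γ)
    rw [← htr]
    have : ((f (c.symm γ) : Γ) : SL(2, ℤ)) = (γ : SL(2, ℤ)) := by
      rw [← coe_imEquiv f hf, ← hc, MulEquiv.apply_symm_apply]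
    rw [this]
    exact hγ
  have e1 : φ''.comp (MonoidHom.toAdditive c.toMonoidHom) = x.comp (MonoidHom.toAdditive f) := by
    ext γ
    rfl
  have e2 : ψ''.comp (MonoidHom.toAdditive c.toMonoidHom) = y := by
    ext γ
    show y (Additive.ofMul (c.symm (c (Additive.toMul γ)))) = _
    rw [MulEquiv.symm_apply_apply]
    rfl
  have h6 := cup_comp_mulEquiv Γ' (imSub Γ K) hneg' hnegK c
    (fun γ => by rw [coe_imEquiv]; exact hpos γ) φ'' ψ'' hφ''par hψ''par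
  rw [e1, e2] at h6
  have h5 := cup_res_transfer Γ hneg K hnegK x hx ψ'' hψ''par
  rw [h6]
  refine h5.trans ?_
  rw [Fermat.Agent.L.coresFun_eq f ℤ y hf]
  congr 3
  ext k
  show y (Additive.ofMul (c.symm (Γ.subtype.subgroupMap K k))) = _
  rw [hc, imEquiv_symm_subgroupMap]
  rfl

end Fermat.Agent.LPD
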