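/-
Cluster L / PD (helper17): assembly.  `pdStatement : PDStatement N q p`.
`B = cup` on `Hom_par(Γ₀(N), ℤ)`, `B' = cup` on `Hom_par(Γ₀(N q), ℤ)`, `ε = -1`.
-/
import Fermat.Agent.L.PD.ProjFormula
import Fermat.Agent.L.PD.Nondeg
import Fermat.Agent.L.Interfaces
import Fermat.Agent.L.Degen.Main

set_option autoImplicit false
set_option linter.unusedSectionVars false

noncomputable section

namespace Fermat.Agent.LPD

open scoped MatrixGroups
open CongruenceSubgroup ModularCurve.Period Fermat.Agent.F3EC Fermat.Agent.L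

section CupLin

variable (Γ : Subgroup SL(2, ℤ)) [Γ.FiniteIndex] (hneg : (-1 : SL(2, ℤ)) ∈ Γ)

/-- The cup product as a bilinear form on `Hom_par(Γ, ℤ)`. -/
def cupLin : HomParZ Γ →ₗ[ℤ] HomParZ Γ →ₗ[ℤ] ℤ :=
  AddMonoidHom.toIntLinearMap
    (AddMonoidHom.mk'
      (fun x => AddMonoidHom.toIntLinearMap
        (AddMonoidHom.mk' (fun y : HomParZ Γ => cup Γ x.1 y.1)
          (fun y y' => cup_add_right Γ hneg x.2 y.2 y'.2)))
      (fun x x' => by
        ext y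
        exact cup_add_left Γ hneg x.2 x'.2 y.2))

@[simp] theorem cupLin_apply (x y : HomParZ Γ) : cupLin Γ hneg x y = cup Γ x.1 y.1 := rfl

end CupLin

theorem neg_one_mem_Gamma0 (N : ℕ) : (-1 : SL(2, ℤ)) ∈ Gamma0 N := by
  rw [Gamma0_mem]; simp

section Incl

variable (N q : ℕ) [NeZero q]

theorem incl_neg_one :
    ((incl N q ⟨-1, neg_one_mem_Gamma0 (N * q)⟩ : Gamma0 N) : SL(2, ℤ)) = -1 := rfl

theorem inclD_neg_one :
    ((inclD N q ⟨-1, neg_one_mem_Gamma0 (N * q)⟩ : Gamma0 N) : SL(2, ℤ)) = -1 := by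
  apply Subtype.ext
  rw [inclD_coe]
  ext i j
  fin_cases i <;> fin_cases j <;> simp [conjDMat]

theorem isPosPar_inclD (γ : Gamma0 (N * q)) :
    IsPosPar (γ : SL(2, ℤ)) ↔ IsPosPar ((inclD N q γ : Gamma0 N) : SL(2, ℤ)) := by
  have hq : (0 : ℤ) < q := by exact_mod_cast Nat.pos_of_ne_zero (NeZero.ne q)
  obtain ⟨c, hc⟩ := q_dvd_of_mem N q γ.2
  have h01 : ((inclD N q γ : Gamma0 N) : SL(2, ℤ)) 0 1 = (q : ℤ) * (γ : SL(2, ℤ)) 0 1 := by
    show (((inclD N q γ : Gamma0 N) : SL(2, ℤ)) : Matrix (Fin 2) (Fin 2) ℤ) 0 1 = _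
    rw [inclD_coe]; simp [conjDMat]
  have h10 : ((inclD N q γ : Gamma0 N) : SL(2, ℤ)) 1 0 = c := by
    show (((inclD N q γ : Gamma0 N) : SL(2, ℤ)) : Matrix (Fin 2) (Fin 2) ℤ) 1 0 = _
    rw [inclD_coe]
    simp only [conjDMat, Matrix.of_apply, Matrix.cons_val', Matrix.cons_val_one,
      Matrix.cons_val_zero]
    rw [hc, Int.mul_ediv_cancel_left _ hq.ne']
  have hne : ((inclD N q γ : Gamma0 N) : SL(2, ℤ)) ≠ 1 ↔ (γ : SL(2, ℤ)) ≠ 1 := by
    refine not_congr ?_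
    constructor
    · intro h
      have h1 : inclD N q γ = 1 := Subtype.ext h
      have h2 : γ = 1 := inclD_injective N q (by rw [h1, map_one])
      rw [h2]; rfl
    · intro h
      have h2 : γ = 1 := Subtype.ext h
      rw [h2, map_one]; rfl
  unfold IsPosPar
  rw [hne, trace_inclD, h01, h10, hc]
  constructor
  · rintro ⟨a, b, c1, c2⟩
    exact ⟨a, b, mul_nonneg hq.le c1, by nlinarith⟩
  · rintro ⟨a, b, c1, c2⟩
    exact ⟨a, b, by nlinarith, by nlinarith⟩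

variable {N q}

/-- The projection formula for the inclusion `Γ₀(N q) → Γ₀(N)`. -/
theorem cup_resPar (hq : q.Prime) (hqN : ¬ q ∣ N) (x : HomPar N) (y : HomPar (N * q)) :
    cup (Gamma0 (N * q)) (resPar N q x).1 y.1 = cup (Gamma0 N) x.1 (coresAll N q ℤ y.1) := by
  have hN : NeZero N := ⟨fun h => hqN (h ▸ dvd_zero q)⟩
  have := Fermat.Agent.LDeg.finiteIndex_incl hq hqN
  exact cup_res_cores (Gamma0 (N * q)) (Gamma0 N) (neg_one_mem_Gamma0 _) (neg_one_mem_Gamma0 _)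
    (incl N q) (Subgroup.inclusion_injective _) (incl_neg_one N q) (fun _ => rfl)
    (fun _ => Iff.rfl) x.1 x.2 y.1 y.2

/-- The projection formula for the conjugation by `diag(q, 1)`. -/
theorem cup_resParD (hq : q.Prime) (hqN : ¬ q ∣ N) (x : HomPar N) (y : HomPar (N * q)) :
    cup (Gamma0 (N * q)) (resParD N q x).1 y.1 = cup (Gamma0 N) x.1 (coresAllD N q ℤ y.1) := by
  have hN : NeZero N := ⟨fun h => hqN (h ▸ dvd_zero q)⟩
  have := Fermat.Agent.LDeg.finiteIndex_inclD hq hqN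
  exact cup_res_cores (Gamma0 (N * q)) (Gamma0 N) (neg_one_mem_Gamma0 _) (neg_one_mem_Gamma0 _)
    (inclD N q) (inclD_injective N q) (inclD_neg_one N q) (trace_inclD N q)
    (isPosPar_inclD N q) x.1 x.2 y.1 y.2

end Incl

/-- The Hecke operators `T_ℓ`, `ℓ ∤ N`, are self-adjoint for the cup product. -/
theorem cup_heckeHom (N : ℕ) [NeZero N] (ℓ : Nat.Primes) (hℓ : ¬ (ℓ : ℕ) ∣ N) (x y : HomPar N) :
    cup (Gamma0 N) (heckeHom N ℓ x).1 y.1 = cup (Gamma0 N) x.1 (heckeHom N ℓ y).1 := by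
  have hℓ0 : NeZero (ℓ : ℕ) := ⟨ℓ.2.ne_zero⟩
  obtain ⟨β₁, β₂, hβ, -, -, h1, h2, -⟩ := Fermat.Agent.LDeg.degStatement (N := N) (q := ℓ) ℓ.2 hℓ
  have hneg := neg_one_mem_Gamma0 N
  have e1 : heckeHom N ℓ x = β₁ (resParD N ℓ x) := (h1 x).symm
  have e2 : heckeHom N ℓ y = β₂ (resPar N ℓ y) := (h2 y).symm
  rw [e1, e2, cup_antisymm (Gamma0 N) hneg (β₁ (resParD N ℓ x)).2 y.2, hβ.coe₁, hβ.coe₂,
    ← cup_resPar ℓ.2 hℓ, ← cup_resParD ℓ.2 hℓ,
    cup_antisymm (Gamma0 (N * ℓ)) (neg_one_mem_Gamma0 _) (resPar N ℓ y).2 (resParD N ℓ x).2]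
  ring

/-- **WP PD**: Poincaré duality modulo `p` for the lattices of parabolic homomorphisms. -/
theorem pdStatement (N q p : ℕ) [NeZero q] : PDStatement N q p := by
  intro hq hqN hp _ _ β₁ β₂ hβ
  have hN : NeZero N := ⟨fun h => hqN (h ▸ dvd_zero q)⟩
  have hneg := neg_one_mem_Gamma0 N
  have hneg' := neg_one_mem_Gamma0 (N * q)
  refine ⟨cupLin (Gamma0 N) hneg, cupLin (Gamma0 (N * q)) hneg', -1, Or.inr rfl, ?_, ?_, ?_, ?_,
    ?_, ?_, ?_⟩
  · intro x y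
    rw [cupLin_apply, cupLin_apply, cup_antisymm _ hneg x.2 y.2]; ring
  · intro x y
    rw [cupLin_apply, cupLin_apply, cup_antisymm _ hneg' x.2 y.2]; ring
  · intro x hx
    obtain ⟨φ', hφ', h⟩ := cup_nondeg (Gamma0 N) hneg p hp x.1 x.2 (fun ψ hψ => hx ⟨ψ, hψ⟩)
    exact ⟨⟨φ', hφ'⟩, Subtype.ext h⟩
  · intro x hx
    obtain ⟨φ', hφ', h⟩ := cup_nondeg (Gamma0 (N * q)) hneg' p hp x.1 x.2
      (fun ψ hψ => hx ⟨ψ, hψ⟩)
    exact ⟨⟨φ', hφ'⟩, Subtype.ext h⟩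
  · intro x y
    rw [cupLin_apply, cupLin_apply, hβ.coe₁]
    exact cup_resPar hq hqN x y
  · intro x y
    rw [cupLin_apply, cupLin_apply, hβ.coe₂]
    exact cup_resParD hq hqN x y
  · intro ℓ hℓ x y
    rw [cupLin_apply, cupLin_apply]
    exact cup_heckeHom N ℓ (fun h => hℓ (Dvd.dvd.mul_right h q)) x y

end Fermat.Agent.LPD
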