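/-
Cluster L / PD (helper17): pull-back and push-forward (fibre sums) of crossed homomorphisms along
an equivariant map `π : Y → X` of `G`-sets; adjunction for the standard pairings.
-/
import Fermat.Agent.L.PD.Defs

set_option autoImplicit false
set_option linter.unusedSectionVars false

noncomputable section

namespace Fermat.Agent.LPD

open scoped MatrixGroups

section PushPull

variable {X Y : Type} [MulAction SL(2, ℤ) X] [MulAction SL(2, ℤ) Y]

/-- Pull-back of a function. -/
def pullFun (π : Y → X) (f : X → ℤ) : Y → ℤ := fun y => f (π y)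

open Classical in
/-- Push-forward of a function: sums over the fibres. -/
def pushFun [Fintype Y] (π : Y → X) (f : Y → ℤ) : X → ℤ :=
  fun x => ∑ y ∈ Finset.univ.filter (fun y => π y = x), f y

@[simp] theorem pullFun_apply (π : Y → X) (f : X → ℤ) (y : Y) : pullFun π f y = f (π y) := rfl

open Classical in
theorem pushFun_apply [Fintype Y] (π : Y → X) (f : Y → ℤ) (x : X) :
    pushFun π f x = ∑ y ∈ Finset.univ.filter (fun y => π y = x), f y := rfl

/-- `(π_* f) ∘ g = π_* (f ∘ g)` for an equivariant map `π`. -/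
theorem pushFun_smul [Fintype Y] (π : Y → X) (hπ : ∀ (g : SL(2, ℤ)) (y : Y), π (g • y) = g • π y)
    (f : Y → ℤ) (g : SL(2, ℤ)) (x : X) :
    pushFun π f (g • x) = pushFun π (fun y => f (g • y)) x := by
  classical
  rw [pushFun_apply, pushFun_apply]
  refine (Finset.sum_bij (fun y _ => g • y) ?_ ?_ ?_ ?_).symm
  · intro y hy
    simp only [Finset.mem_filter, Finset.mem_univ, true_and] at hy ⊢
    rw [hπ, hy]
  · intro y _ y' _ h
    exact MulAction.injective g h
  · intro y hy
    simp only [Finset.mem_filter, Finset.mem_univ, true_and] at hy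
    refine ⟨g⁻¹ • y, ?_, by simp⟩
    simp only [Finset.mem_filter, Finset.mem_univ, true_and]
    rw [hπ, hy, inv_smul_smul]
  · intro y _
    rfl

theorem pushFun_add [Fintype Y] (π : Y → X) (f f' : Y → ℤ) :
    pushFun π (f + f') = pushFun π f + pushFun π f' := by
  classical
  funext x
  simp only [pushFun_apply, Pi.add_apply, Finset.sum_add_distrib]

theorem pushFun_zero [Fintype Y] (π : Y → X) : pushFun π (0 : Y → ℤ) = 0 := by
  classical
  funext x
  simp [pushFun_apply]

/-- Adjunction: `⟨π^* f, f'⟩_Y = ⟨f, π_* f'⟩_X`. -/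
theorem inner_pullFun [Fintype X] [Fintype Y] (π : Y → X) (f : X → ℤ) (f' : Y → ℤ) :
    inner (pullFun π f) f' = inner f (pushFun π f') := by
  classical
  simp only [inner, pullFun_apply, pushFun_apply, Finset.mul_sum]
  rw [← Finset.sum_fiberwise (s := Finset.univ) (g := π) (f := fun y => f (π y) * f' y)]
  refine Finset.sum_congr rfl fun x _ => ?_
  refine Finset.sum_congr rfl fun y hy => ?_
  simp only [Finset.mem_filter, Finset.mem_univ, true_and] at hy
  rw [hy]

/-- Pull-back of a crossed homomorphism along an equivariant map. -/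
def CrossedHom.pull (π : Y → X) (hπ : ∀ (g : SL(2, ℤ)) (y : Y), π (g • y) = g • π y)
    (d : CrossedHom X ℤ) : CrossedHom Y ℤ where
  toFun g := pullFun π (d g)
  map_mul' g h y := by
    simp only [pullFun_apply]
    rw [d.map_mul, hπ]

/-- Push-forward of a crossed homomorphism along an equivariant map. -/
def CrossedHom.push [Fintype Y] (π : Y → X)
    (hπ : ∀ (g : SL(2, ℤ)) (y : Y), π (g • y) = g • π y)
    (d : CrossedHom Y ℤ) : CrossedHom X ℤ where
  toFun g := pushFun π (d g)
  map_mul' g h x := by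
    have h1 : d (g * h) = (fun y => d g (h • y)) + d h := by
      funext y
      exact d.map_mul g h y
    rw [h1, pushFun_add, Pi.add_apply, pushFun_smul π hπ]

@[simp] theorem CrossedHom.pull_apply (π : Y → X)
    (hπ : ∀ (g : SL(2, ℤ)) (y : Y), π (g • y) = g • π y) (d : CrossedHom X ℤ) (g : SL(2, ℤ)) :
    d.pull π hπ g = pullFun π (d g) := rfl

@[simp] theorem CrossedHom.push_apply [Fintype Y] (π : Y → X)
    (hπ : ∀ (g : SL(2, ℤ)) (y : Y), π (g • y) = g • π y) (d : CrossedHom Y ℤ) (g : SL(2, ℤ)) :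
    d.push π hπ g = pushFun π (d g) := rfl

theorem pullFun_mem_Kc (π : Y → X) (hπ : ∀ (g : SL(2, ℤ)) (y : Y), π (g • y) = g • π y)
    {m : X → ℤ} (hm : m ∈ Kc X) : pullFun π m ∈ Kc Y := by
  refine ⟨fun y => ?_, fun y => ?_⟩
  · simp only [pullFun_apply, hπ]; exact hm.1 _
  · simp only [pullFun_apply, hπ]; exact hm.2 _

theorem pushFun_mem_Kc [Fintype Y] (π : Y → X)
    (hπ : ∀ (g : SL(2, ℤ)) (y : Y), π (g • y) = g • π y)
    {m : Y → ℤ} (hm : m ∈ Kc Y) : pushFun π m ∈ Kc X := by
  classical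
  refine ⟨fun x => ?_, fun x => ?_⟩
  · rw [pushFun_smul π hπ, pushFun_apply, pushFun_apply, ← Finset.sum_add_distrib]
    exact Finset.sum_eq_zero fun y _ => hm.1 y
  · rw [pushFun_smul π hπ, pushFun_smul π hπ, pushFun_smul π hπ, pushFun_apply, pushFun_apply,
      pushFun_apply, ← Finset.sum_add_distrib, ← Finset.sum_add_distrib]
    exact Finset.sum_eq_zero fun y _ => hm.2 y

end PushPull

section Coset

variable (Γ : Subgroup SL(2, ℤ)) (K : Subgroup Γ)

/-- The image of `K ≤ Γ` in `SL(2, ℤ)`. -/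
abbrev imSub : Subgroup SL(2, ℤ) := K.map Γ.subtype

theorem imSub_le : imSub Γ K ≤ Γ := by
  rintro _ ⟨k, _, rfl⟩
  exact k.2

/-- The projection `G ⧸ K → G ⧸ Γ`. -/
def projK : SL(2, ℤ) ⧸ imSub Γ K → SL(2, ℤ) ⧸ Γ := Subgroup.quotientMapOfLE (imSub_le Γ K)

theorem projK_smul (g : SL(2, ℤ)) (y : SL(2, ℤ) ⧸ imSub Γ K) :
    projK Γ K (g • y) = g • projK Γ K y := by
  obtain ⟨h, rfl⟩ := QuotientGroup.mk_surjective y
  rfl

@[simp] theorem projK_mk (g : SL(2, ℤ)) :
    projK Γ K ((g : SL(2, ℤ)) : SL(2, ℤ) ⧸ imSub Γ K) = (g : SL(2, ℤ) ⧸ Γ) := rfl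

/-- The homomorphism of `K` induced by a crossed homomorphism on `G ⧸ K`, multiplicatively. -/
def evK (d : CrossedHom (SL(2, ℤ) ⧸ imSub Γ K) ℤ) : K →* Multiplicative ℤ :=
  (AddMonoidHom.toMultiplicativeRight d.ev).comp (Γ.subtype.subgroupMap K)

theorem evK_apply (d : CrossedHom (SL(2, ℤ) ⧸ imSub Γ K) ℤ) (k : K) :
    evK Γ K d k = Multiplicative.ofAdd
      (d ((k : Γ) : SL(2, ℤ)) ((1 : SL(2, ℤ)) : SL(2, ℤ) ⧸ imSub Γ K)) := rfl

end Coset

end Fermat.Agent.LPD
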